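import Fermat.Agent.IwasawaGrowth.Tower
import Fermat.Agent.IwasawaControl.Splitting
import Fermat.Agent.ClassField94.Capitulation

/-!
# Bounded `ℓ`-ranks in a `ℤ_p`-extension, `ℓ ≠ p`

If the classes killed by a prime `ℓ ≠ p` are bounded in number along a `ℤ_p`-extension then above
some level the Galois groups of the steps fix them, hence fix the whole `ℓ`-part, which therefore
comes from below: the exponent of `ℓ` in the class numbers is eventually constant
(`exists_ell_stable`).

Classical (Washington).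
-/

set_option autoImplicit false
set_option linter.unusedSectionVars false
set_option linter.style.haveILetI false

noncomputable section

open NumberField
open FA.IwasawaGrowth
open FA.CycloTower (actCl actCl_mk0)
open scoped Classical Pointwise nonZeroDivisors

namespace FA.WashingtonAbelian

variable {F L : Type} [Field F] [NumberField F] [Field L] [NumberField L] [Algebra F L]
  [IsGalois F L]

theorem algebraMap_intNorm_eq_prod (z : 𝓞 L) :
    algebraMap (𝓞 F) (𝓞 L) (Algebra.intNorm (𝓞 F) (𝓞 L) z) = ∏ g : L ≃ₐ[F] L, g • z := by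
  apply RingOfIntegers.coe_injective
  rw [← IsScalarTower.algebraMap_apply, IsScalarTower.algebraMap_apply (𝓞 F) F L,
    Algebra.algebraMap_intNorm (K := F) (L := L), Algebra.norm_eq_prod_automorphisms, map_prod]
  rfl

/-- The extension of the norm of an ideal. -/
theorem map_relNorm_eq_prod (I : (Ideal (𝓞 L))⁰) :
    (Ideal.relNorm (𝓞 F) (I : Ideal (𝓞 L))).map (algebraMap (𝓞 F) (𝓞 L)) =
      ∏ g : L ≃ₐ[F] L, g • (I : Ideal (𝓞 L)) := by
  have hne : ∀ g : L ≃ₐ[F] L, g • (I : Ideal (𝓞 L)) ≠ 0 := fun g h =>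
    nonZeroDivisors.coe_ne_zero I (by
      rw [← inv_smul_smul g (I : Ideal (𝓞 L)), h, Ideal.zero_eq_bot, Ideal.smul_bot])
  symm
  refine FA.Ext.eq_of_dvd_of_absNorm_eq ?_ (Finset.prod_ne_zero_iff.mpr fun g _ => hne g) ?_
  · rw [Ideal.dvd_iff_le, Ideal.map_relNorm, Ideal.span_le]
    rintro _ ⟨z, hz, rfl⟩
    rw [Function.comp_apply, algebraMap_intNorm_eq_prod]
    exact Ideal.prod_mem_prod fun g _ => Ideal.smul_mem_pointwise_smul g z _ hz
  · rw [map_prod, Ideal.absNorm_algebraMap, Ideal.absNorm_relNorm,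
      ← IsFractionRing.finrank_eq (𝓞 F) F (𝓞 L) L, ← IsGalois.card_aut_eq_finrank,
      Nat.card_eq_fintype_card, ← Finset.card_univ, ← Finset.prod_const]
    refine Finset.prod_congr rfl fun g _ => ?_
    rw [← Ideal.absNorm_relNorm (𝓞 F) (𝓞 L) (g • (I : Ideal (𝓞 L))),
      ← Ideal.absNorm_relNorm (𝓞 F) (𝓞 L) (I : Ideal (𝓞 L)), Ideal.relNorm_smul]

/-- **Norm and extension.** -/
theorem exists_extended_eq_prod (c : ClassGroup (𝓞 L)) :
    ∃ y : ClassGroup (𝓞 F),
      ClassGroup.extendedHom (𝓞 F) (𝓞 L) y = ∏ g : L ≃ₐ[F] L, actCl g c := by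
  obtain ⟨I, rfl⟩ := ClassGroup.mk0_surjective c
  exact ⟨ClassGroup.mk0 ⟨Ideal.relNorm (𝓞 F) (I : Ideal (𝓞 L)),
      mem_nonZeroDivisors_iff_ne_zero.mpr fun h =>
        nonZeroDivisors.coe_ne_zero I (Ideal.relNorm_eq_bot_iff.mp h)⟩,
    FA.IwasawaControl.extendedHom_eq_prod_actCl _ I (map_relNorm_eq_prod I)⟩

/-- An automorphism of order prime to `ℓ` fixing the elements killed by `ℓ` fixes the `ℓ`-part. -/
theorem fixed_of_fixed_torsion {A : Type*} [CommGroup A] {p ℓ : ℕ} (hco : p.Coprime ℓ)
    (τ : MulAut A) (hτ : τ ^ p = 1) (h : ∀ x : A, x ^ ℓ = 1 → τ x = x) :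
    ∀ (k : ℕ) (x : A), x ^ ℓ ^ k = 1 → τ x = x := by
  intro k
  induction k with
  | zero =>
    intro x hx
    rw [pow_zero, pow_one] at hx
    rw [hx, map_one]
  | succ k ih =>
    intro x hx
    have h1 := ih (x ^ ℓ) (by rw [← pow_mul, ← pow_succ', hx])
    rw [map_pow] at h1
    set v := τ x / x
    have hv : v ^ ℓ = 1 := by rw [div_pow, h1, div_self']
    have hstep : ∀ i, (τ ^ i) x = x * v ^ i := fun i => by
      induction i with
      | zero => simp
      | succ i ihi =>
        rw [pow_succ' τ, MulAut.mul_apply, ihi, map_mul, map_pow, h v hv, pow_succ']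
        rw [← mul_assoc, show x * v = τ x by rw [mul_div_cancel]]
    have h2 := hstep p
    rw [hτ, MulAut.one_apply, left_eq_mul] at h2
    have h3 : v = 1 := by
      rw [← pow_one v, ← hco]
      exact pow_gcd_eq_one.2 ⟨h2, hv⟩
    exact div_eq_one.1 h3

/-- Isolating the `ℓ`-part. -/
theorem padicValNat_card_le_of_mem_range {A B : Type*} [CommGroup A] [CommGroup B] [Finite A]
    [Finite B] {ℓ : ℕ} [hl : Fact ℓ.Prime] (f : A →* B)
    (h : ∀ (k : ℕ) (x : B), x ^ ℓ ^ k = 1 → x ∈ f.range) :
    padicValNat ℓ (Nat.card B) ≤ padicValNat ℓ (Nat.card A) := by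
  obtain ⟨P, hP⟩ := Sylow.exists_subgroup_card_pow_prime ℓ
    (pow_padicValNat_dvd : ℓ ^ padicValNat ℓ (Nat.card B) ∣ Nat.card B)
  have hle : P ≤ f.range := fun x hx => h (padicValNat ℓ (Nat.card B)) x (by
    have := congrArg Subtype.val (pow_card_eq_one' (x := (⟨x, hx⟩ : P)))
    rwa [hP] at this)
  exact (padicValNat_dvd_iff_le Nat.card_pos.ne').1
    ((hP ▸ Subgroup.card_dvd_of_le hle).trans (Subgroup.card_range_dvd f))

/-- **A step of degree `p` fixing the classes killed by `ℓ`.** -/
theorem padicValNat_classNumber_step {p ℓ : ℕ} [hp : Fact p.Prime] [hl : Fact ℓ.Prime]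
    (hne : ℓ ≠ p) (hdeg : Module.finrank F L = p)
    (hfix : ∀ (g : L ≃ₐ[F] L) (x : ClassGroup (𝓞 L)), x ^ ℓ = 1 → actCl g x = x) :
    padicValNat ℓ (classNumber L) = padicValNat ℓ (classNumber F) := by
  set ext := ClassGroup.extendedHom (𝓞 F) (𝓞 L)
  have hco : p.Coprime ℓ := (Nat.coprime_primes hp.out hl.out).2 hne.symm
  have hcard : Nat.card (L ≃ₐ[F] L) = p := (IsGalois.card_aut_eq_finrank F L).trans hdeg
  rw [classNumber, classNumber, ← Nat.card_eq_fintype_card, ← Nat.card_eq_fintype_card]
  refine le_antisymm (padicValNat_card_le_of_mem_range ext fun k x hx => ?_) ?_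
  · have hall : ∀ g : L ≃ₐ[F] L, actCl g x = x := fun g =>
      fixed_of_fixed_torsion hco (actCl g) (by rw [← map_pow, ← hcard, pow_card_eq_one', map_one])
        (hfix g) k x hx
    obtain ⟨y, hy⟩ := exists_extended_eq_prod (F := F) x
    rw [Finset.prod_congr rfl fun g _ => hall g, Finset.prod_const, Finset.card_univ,
      ← Nat.card_eq_fintype_card, hcard] at hy
    obtain ⟨m, -, hm⟩ := Nat.exists_mul_mod_eq_one_of_coprime (hco.pow_right (k + 1))
      (Nat.one_lt_pow k.succ_ne_zero hl.out.one_lt)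
    refine ⟨y ^ m, ?_⟩
    rw [map_pow, hy, ← pow_mul, pow_eq_pow_mod _ (show x ^ ℓ ^ (k + 1) = 1 by
      rw [pow_succ, pow_mul, hx, one_pow]), hm, pow_one]
  · have hker : ¬ ℓ ∣ Nat.card ext.ker := fun hd => by
      obtain ⟨x, hx⟩ := exists_prime_orderOf_dvd_card' ℓ hd
      have h1 : x.1 ^ p = 1 := hdeg ▸ FA.ClassField94.pow_finrank_eq_one x.2
      have h2 : orderOf x ∣ p := orderOf_dvd_of_pow_eq_one (Subtype.ext h1)
      rw [hx] at h2
      exact hne ((Nat.prime_dvd_prime_iff_eq hl.out hp.out).1 h2)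
    rw [← Subgroup.card_mul_index ext.ker, padicValNat.mul Nat.card_pos.ne'
      Subgroup.index_ne_zero_of_finite, padicValNat.eq_zero_of_not_dvd hker, zero_add,
      Subgroup.index_ker]
    exact (padicValNat_dvd_iff_le Nat.card_pos.ne').1
      (pow_padicValNat_dvd.trans (Subgroup.card_subgroup_dvd_card ext.range))

attribute [local instance] numberField_sub ZpTower.finite_level ZpTower.isGalois

/-- **Bounded `ℓ`-rank: the `ℓ`-part is eventually constant.** -/
theorem exists_ell_stable {K : Type} [Field K] [NumberField K] {p ℓ : ℕ} [hp : Fact p.Prime]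
    [hl : Fact ℓ.Prime] (hne : ℓ ≠ p) (T : ZpTower p K) {C : ℕ}
    (hC : ∀ n, Nat.card (powMonoidHom ℓ :
      ClassGroup (𝓞 (T.field n)) →* ClassGroup (𝓞 (T.field n))).ker ≤ C) :
    ∃ n₀ c : ℕ, ∀ n, n₀ ≤ n → padicValNat ℓ (classNumber (T.field n)) = c := by
  refine ⟨C.factorial, padicValNat ℓ (classNumber (T.field C.factorial)), fun n hn => ?_⟩
  induction n, hn using Nat.le_induction with
  | base => rfl
  | succ n hn ih =>
    rw [← ih]
    letI : Algebra (T.field n) (T.field (n + 1)) :=
      (IntermediateField.inclusion (T.mono n.le_succ)).toRingHom.toAlgebra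
    haveI : IsScalarTower K (T.field n) (T.field (n + 1)) :=
      IsScalarTower.of_algebraMap_eq fun _ => rfl
    haveI : IsGalois (T.field n) (T.field (n + 1)) := IsGalois.tower_top_of_isGalois K _ _
    have hdeg : Module.finrank (T.field n) (T.field (n + 1)) = p := by
      have h := Module.finrank_mul_finrank K (T.field n) (T.field (n + 1))
      rw [T.finrank_eq, T.finrank_eq, pow_succ] at h
      exact Nat.eq_of_mul_eq_mul_left (pow_pos hp.out.pos n) h
    refine padicValNat_classNumber_step hne hdeg fun g x hx => ?_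
    -- the action on the classes killed by `ℓ`
    set V := {c : ClassGroup (𝓞 (T.field (n + 1))) // c ^ ℓ = 1}
    let act : (T.field (n + 1) ≃ₐ[K] T.field (n + 1)) →* Equiv.Perm V :=
      { toFun := fun s =>
          { toFun := fun c => ⟨actCl s c.1, by rw [← map_pow, c.2, map_one]⟩
            invFun := fun c => ⟨(actCl s).symm c.1, by rw [← map_pow, c.2, map_one]⟩
            left_inv := fun c => Subtype.ext ((actCl s).symm_apply_apply c.1)
            right_inv := fun c => Subtype.ext ((actCl s).apply_symm_apply c.1) }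
        map_one' := Equiv.ext fun c => Subtype.ext (by
          show actCl (1 : T.field (n + 1) ≃ₐ[K] T.field (n + 1)) c.1 = c.1
          rw [map_one]
          rfl)
        map_mul' := fun s t => Equiv.ext fun c => Subtype.ext (by
          show actCl (s * t) c.1 = actCl s (actCl t c.1)
          rw [map_mul]
          rfl) }
    haveI := T.isCyclic (n + 1)
    obtain ⟨t, ht⟩ := IsCyclic.exists_generator (α := T.field (n + 1) ≃ₐ[K] T.field (n + 1))
    have hordt : orderOf t = p ^ (n + 1) := by
      rw [orderOf_eq_card_of_forall_mem_zpowers ht, T.card_gal]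
    set s := g.restrictScalars K
    have hs : s ^ p = 1 := by
      have hg : g ^ p = 1 := by
        have h1 := pow_card_eq_one' (x := g)
        rwa [IsGalois.card_aut_eq_finrank, hdeg] at h1
      refine AlgEquiv.ext fun y => ?_
      have hpow : ∀ i, (s ^ i) y = (g ^ i) y := fun i => by
        induction i with
        | zero => rfl
        | succ i ihi =>
          rw [pow_succ', pow_succ', AlgEquiv.mul_apply, AlgEquiv.mul_apply, ihi]
          rfl
      rw [hpow, hg]
      rfl
    obtain ⟨j, hj⟩ := (mem_powers_iff_mem_zpowers.2 (ht s))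
    have hj' : p ^ n ∣ j := by
      have h1 : t ^ (j * p) = 1 := by rw [pow_mul, show t ^ j = s from hj, hs]
      rw [← orderOf_dvd_iff_pow_eq_one, hordt, pow_succ] at h1
      exact (Nat.mul_dvd_mul_iff_right hp.out.pos).1 h1
    have hact : act t ^ p ^ n = 1 := by
      have h1 : orderOf (act t) ∣ p ^ (n + 1) := hordt ▸ orderOf_map_dvd act t
      obtain ⟨i, -, hi⟩ := (Nat.dvd_prime_pow hp.out).1 h1
      have h2 : orderOf (act t) ∣ C.factorial := by
        refine (orderOf_dvd_natCard _).trans ?_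
        rw [Nat.card_perm]
        exact Nat.factorial_dvd_factorial (hC (n + 1))
      rw [hi] at h2
      have h3 : i ≤ n := ((Nat.lt_pow_self hp.out.one_lt).le.trans
        (Nat.le_of_dvd (Nat.factorial_pos C) h2)).trans hn
      rw [← orderOf_dvd_iff_pow_eq_one, hi]
      exact pow_dvd_pow p h3
    obtain ⟨r, rfl⟩ := hj'
    have h4 : act s = 1 := by
      rw [← show t ^ (p ^ n * r) = s from hj, map_pow, pow_mul, hact, one_pow]
    have h5 := congrArg Subtype.val (DFunLike.congr_fun h4 (⟨x, hx⟩ : V))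
    exact h5

end FA.WashingtonAbelian
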