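import Fermat.Agent.IwasawaMinus.EllCrossing
import Fermat.Agent.FerreroAbelian.Crossing

/-!
# A jump inside one twisted coset

Two units for which the terms `⌊c r / (d p^(n+1))⌋` of the translates by `g^(M j)`,
`M = p^(n - m₀)`, `0 ≤ j < (p - 1)/2 · p^(m₀)`, and of all residues `b` modulo `d` differ only at
`j = 0`, `b = 1` (`eventually_single_jump`).
-/

set_option autoImplicit false
set_option linter.unusedSectionVars false
set_option linter.style.haveILetI false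

noncomputable section

open Polynomial
open FA.IwasawaMinus
open FA.FerreroAbelian (fr fr_lt fl fl_eq exists_int_fr)
open scoped Classical

namespace FA.WashingtonAbelian

variable {p : ℕ} [hp : Fact p.Prime] {d g : ℕ} [NeZero d]

theorem coordForm_zero (hp2 : p ≠ 2) (y : Fin (Nat.totient (p - 1)) → ℝ)
    (hr : 0 < Nat.totient (p - 1)) : coordForm p 0 y = y ⟨0, hr⟩ := by
  rw [coordForm, Finset.sum_eq_single ⟨0, hr⟩ (fun j _ hj => by
    rw [coordCoeff, if_pos rfl, if_neg fun e => hj (Fin.ext e), Int.cast_zero, zero_mul])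
    (fun h => absurd (Finset.mem_univ _) h)]
  simp [coordCoeff]

theorem coordForm_half (hp2 : p ≠ 2) (y : Fin (Nat.totient (p - 1)) → ℝ)
    (hr : 0 < Nat.totient (p - 1)) : coordForm p ((p - 1) / 2) y = -y ⟨0, hr⟩ := by
  have hh0 : (p - 1) / 2 ≠ 0 := by
    have := hp.out.two_le
    omega
  rw [coordForm, Finset.sum_eq_single ⟨0, hr⟩ (fun j _ hj => by
    rw [coordCoeff, if_neg hh0, if_pos rfl, if_neg fun e => hj (Fin.ext e), Int.cast_zero,
      zero_mul]) (fun h => absurd (Finset.mem_univ _) h)]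
  simp [coordCoeff, hh0]

/-- The point of the crossing. -/
def crossPt (p c d : ℕ) : Fin (Nat.totient (p - 1)) → ℝ :=
  fun j => if (j : ℕ) = 0 then (c : ℝ)⁻¹ - ((1 : ZMod d).val : ℝ) / d
    else liouvilleNumber 2 ^ (j : ℕ)

/-- **Off the two jumping terms the value at the crossing is no integer.** -/
theorem crossPt_ne_int (hp2 : p ≠ 2) (hd : d.Coprime p) {c : ℕ} (hc : c ≠ 0) (hpc : ¬ p ∣ c)
    (hcd : (c : ZMod d) = 1) {m₀ i σ : ℕ} (hi : i < p - 1) (hσ : σ < p ^ m₀) (b : ZMod d)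
    (hbad : ¬ (σ = 0 ∧ ((i = 0 ∧ b = 1) ∨ (i = (p - 1) / 2 ∧ b = -1)))) (z : ℤ) :
    (c : ℝ) * ((b.val : ℝ) / d +
      (coordForm p i (crossPt p c d) + (σ : ℝ) / (p ^ m₀ : ℕ))) ≠ z := fun e => by
  have hP : ((p ^ m₀ : ℕ) : ℝ) ≠ 0 := Nat.cast_ne_zero.mpr (pow_ne_zero _ hp.out.ne_zero)
  have hd0 : (d : ℝ) ≠ 0 := Nat.cast_ne_zero.mpr (NeZero.ne d)
  have hcR : (c : ℝ) ≠ 0 := Nat.cast_ne_zero.mpr hc
  have hr : 0 < Nat.totient (p - 1) := Nat.totient_pos.mpr (Nat.sub_pos_of_lt hp.out.one_lt)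
  set P := p ^ m₀ with hPdef
  set v₁ : ℤ := ((1 : ZMod d).val : ℤ) with hv₁
  -- the two degenerate linear forms
  have hdeg : ∀ s : ℤ, (c : ℤ) * (P : ℤ) * ((b.val : ℤ) - s * v₁) + (c : ℤ) * d * σ =
      (d : ℤ) * P * (z - s) → σ = 0 ∧ ((b.val : ℤ) : ZMod d) = (s : ZMod d) := fun s h => by
    have hσ0 : σ = 0 := by
      have hdvd : (P : ℤ) ∣ ((c * d * σ : ℕ) : ℤ) :=
        ⟨d * (z - s) - c * ((b.val : ℤ) - s * v₁), by push_cast; linear_combination h⟩
      have hcop : Nat.Coprime P (c * d) :=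
        (Nat.Coprime.mul_right (hp.out.coprime_iff_not_dvd.mpr hpc)
          (Nat.coprime_comm.1 hd)).pow_left m₀
      exact Nat.eq_zero_of_dvd_of_lt
        (hcop.dvd_of_dvd_mul_left (Int.natCast_dvd_natCast.mp hdvd)) hσ
    refine ⟨hσ0, ?_⟩
    subst hσ0
    have h' : (c : ℤ) * ((b.val : ℤ) - s * v₁) = (d : ℤ) * (z - s) := by
      refine mul_left_cancel₀ (a := (P : ℤ)) ?_ ?_
      · exact_mod_cast pow_ne_zero _ hp.out.ne_zero
      · push_cast at h
        linear_combination h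
    have h'' := congrArg (Int.cast : ℤ → ZMod d) h'
    push_cast [hv₁] at h''
    rw [hcd, ZMod.natCast_self, zero_mul, one_mul, ZMod.natCast_zmod_val, ZMod.natCast_zmod_val,
      mul_one, sub_eq_zero] at h''
    rw [Int.cast_natCast, ZMod.natCast_zmod_val, h'']
  by_cases hi0 : i = 0
  · subst hi0
    rw [coordForm_zero hp2 _ hr, crossPt, if_pos rfl] at e
    field_simp at e
    obtain ⟨h1, h2⟩ := hdeg 1 (by
      have h3 : (((c : ℤ) * P * ((b.val : ℤ) - 1 * v₁) + c * d * σ : ℤ) : ℝ) =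
          (((d : ℤ) * P * (z - 1) : ℤ) : ℝ) := by
        push_cast [hv₁]
        linear_combination e
      exact_mod_cast h3)
    rw [Int.cast_natCast, ZMod.natCast_zmod_val, Int.cast_one] at h2
    exact hbad ⟨h1, Or.inl ⟨rfl, h2⟩⟩
  by_cases hih : i = (p - 1) / 2
  · subst hih
    rw [coordForm_half hp2 _ hr, crossPt, if_pos rfl] at e
    field_simp at e
    obtain ⟨h1, h2⟩ := hdeg (-1) (by
      have h3 : (((c : ℤ) * P * ((b.val : ℤ) - (-1) * v₁) + c * d * σ : ℤ) : ℝ) =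
          (((d : ℤ) * P * (z - -1) : ℤ) : ℝ) := by
        push_cast [hv₁]
        linear_combination e
      exact_mod_cast h3)
    rw [Int.cast_natCast, ZMod.natCast_zmod_val, Int.cast_neg, Int.cast_one] at h2
    exact hbad ⟨h1, Or.inr ⟨rfl, h2⟩⟩
  obtain ⟨j₀, hj₀, hA⟩ := exists_expCoeff_ne_zero hp2 hi hi0 hih
  have hcoef : ∀ j : ℕ, coordCoeff p i j = expCoeff p i j := fun j => by
    rw [coordCoeff, if_neg hi0, if_neg hih]
  set Q : ℤ[X] := ∑ j : Fin (Nat.totient (p - 1)), C (if (j : ℕ) = 0 then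
    (P : ℤ) * ((c : ℤ) * b.val + expCoeff p i j * (d - c * v₁) - d * z) + (c : ℤ) * d * σ
      else (P : ℤ) * c * d * expCoeff p i j) * X ^ (j : ℕ) with hQ
  have hQ0 : Q ≠ 0 := fun e0 => by
    have h := congrArg (fun q => Polynomial.coeff q (j₀ : ℕ)) e0
    simp only [hQ, finsetSum_coeff, coeff_C_mul_X_pow, coeff_zero] at h
    rw [Finset.sum_eq_single j₀ (fun b _ hb => if_neg fun e => hb (Fin.ext e.symm))
      (fun h => absurd (Finset.mem_univ _) h), if_pos rfl, if_neg hj₀] at h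
    refine hA ((mul_eq_zero.mp h).resolve_left (mul_ne_zero (mul_ne_zero ?_ ?_) ?_))
    · exact_mod_cast pow_ne_zero _ hp.out.ne_zero
    · exact_mod_cast hc
    · exact_mod_cast NeZero.ne d
  have hs : Transcendental ℤ (liouvilleNumber 2) := by
    simpa using transcendental_liouvilleNumber (m := 2) le_rfl
  refine hs ⟨Q, hQ0, ?_⟩
  have hterm : ∀ j : Fin (Nat.totient (p - 1)), aeval (liouvilleNumber 2) (C (if (j : ℕ) = 0 then
      (P : ℤ) * ((c : ℤ) * b.val + expCoeff p i j * (d - c * v₁) - d * z) + (c : ℤ) * d * σ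
        else (P : ℤ) * c * d * expCoeff p i j) * X ^ (j : ℕ)) =
      (P : ℝ) * c * d * ((coordCoeff p i j : ℝ) * crossPt p c d j) +
        if (j : ℕ) = 0 then (P : ℝ) * (c * b.val - d * z) + c * d * σ else 0 := fun j => by
    rw [hcoef, map_mul, aeval_C, algebraMap_int_eq, map_pow, aeval_X, crossPt, eq_intCast]
    split_ifs with hj
    · rw [hj, pow_zero, mul_one]
      push_cast [hv₁]
      field_simp
      ring
    · push_cast
      ring
  rw [hQ, map_sum, Finset.sum_congr rfl fun j _ => hterm j, Finset.sum_add_distrib,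
    ← Finset.mul_sum, Finset.sum_eq_single ⟨0, hr⟩
      (fun j _ hj => if_neg fun e => hj (Fin.ext e)) (fun h => absurd (Finset.mem_univ _) h),
    if_pos rfl, ← coordForm]
  field_simp at e
  linear_combination e

/-- **The single jump.** -/
theorem eventually_single_jump (hp2 : p ≠ 2) (hg : IsGen p g) (hd : d.Coprime p) {c : ℕ}
    (hc : 2 ≤ c) (hpc : ¬ p ∣ c) (hcd : (c : ZMod d) = 1) {m₀ : ℕ} (hm₀ : 1 ≤ m₀) :
    ∀ᶠ n in Filter.atTop, ∃ β β' : ZMod (p ^ (n + 1)), IsUnit β ∧ IsUnit β' ∧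
      c * fr d (p ^ (n + 1)) 1 β / (d * p ^ (n + 1)) = 1 ∧
      c * fr d (p ^ (n + 1)) 1 β' / (d * p ^ (n + 1)) = 0 ∧
      ∀ j, j < (p - 1) / 2 * p ^ m₀ → ∀ b : ZMod d, ¬ (j = 0 ∧ b = 1) →
        c * fr d (p ^ (n + 1)) b (β * (g : ZMod (p ^ (n + 1))) ^ (p ^ (n - m₀) * j)) /
            (d * p ^ (n + 1)) =
          c * fr d (p ^ (n + 1)) b (β' * (g : ZMod (p ^ (n + 1))) ^ (p ^ (n - m₀) * j)) /
            (d * p ^ (n + 1)) := by
  have hp1 : 0 < p - 1 := Nat.sub_pos_of_lt hp.out.one_lt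
  have hr : 0 < Nat.totient (p - 1) := Nat.totient_pos.mpr hp1
  have hh0 : 0 ≠ (p - 1) / 2 := by
    have := hp.out.two_le
    omega
  have hcR : (2 : ℝ) ≤ c := by exact_mod_cast hc
  set j0 : Fin (Nat.totient (p - 1)) := ⟨0, hr⟩ with hj0def
  set α : ZMod d → ℝ := fun b => (b.val : ℝ) / d with hα
  set good := (((Finset.range (p - 1)) ×ˢ (Finset.range (p ^ m₀))) ×ˢ
    (Finset.univ : Finset (ZMod d))).filter fun x =>
      ¬ (x.1.2 = 0 ∧ ((x.1.1 = 0 ∧ x.2 = 1) ∨ (x.1.1 = (p - 1) / 2 ∧ x.2 = -1))) with hgood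
  set Φ : (ℕ × ℕ) × ZMod d → (Fin (Nat.totient (p - 1)) → ℝ) → ℝ :=
    fun x y => α x.2 + (coordForm p x.1.1 y + (x.1.2 : ℝ) / (p ^ m₀ : ℕ)) with hΦ
  set x₀ := crossPt p c d with hx₀
  have hnon : ∀ x ∈ good, ∀ m : ℤ, (c : ℝ) * Φ x x₀ ≠ m := fun x hx m => by
    obtain ⟨hmem, hb⟩ := Finset.mem_filter.mp hx
    obtain ⟨h12, -⟩ := Finset.mem_product.mp hmem
    obtain ⟨h1, h2⟩ := Finset.mem_product.mp h12
    exact crossPt_ne_int hp2 hd (by omega) hpc hcd (Finset.mem_range.mp h1)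
      (Finset.mem_range.mp h2) x.2 hb m
  have hev : ∀ᶠ y in nhds x₀, ∀ x ∈ good, fl c (Φ x y) = fl c (Φ x x₀) := by
    refine (Filter.eventually_all_finset _).mpr fun x hx => ?_
    have hfloor : ∀ (G : (Fin (Nat.totient (p - 1)) → ℝ) → ℝ), Continuous G →
        (∀ m : ℤ, G x₀ ≠ m) → ∀ᶠ y in nhds x₀, ⌊G y⌋ = ⌊G x₀⌋ :=
      fun G hG hne => by
        filter_upwards [hG.continuousAt.eventually (Ioo_mem_nhds
          ((Int.floor_le _).lt_of_ne fun e => hne _ e.symm) (Int.lt_floor_add_one _))] with y hy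
        exact Int.floor_eq_iff.mpr ⟨hy.1.le, hy.2⟩
    have hcont : Continuous (Φ x) := by
      simp only [hΦ, coordForm]
      exact continuous_const.add ((continuous_finsetSum _ fun j _ =>
        continuous_const.mul (continuous_apply j)).add continuous_const)
    filter_upwards [hfloor (fun y => (c : ℝ) * Φ x y) (continuous_const.mul hcont) (hnon x hx),
      hfloor _ hcont fun m e => hnon x hx (c * m) (by rw [e]; push_cast; rfl)] with y h1 h2
    rw [fl, fl, h1, h2]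
  obtain ⟨ρ, hρ, hball⟩ := Metric.eventually_nhds_iff.mp hev
  set ε := min (ρ / 3) (2 * (c : ℝ))⁻¹ with hεdef
  have hε : 0 < ε := lt_min (by positivity) (by positivity)
  have hερ : 2 * ε < ρ := by linarith [min_le_left (ρ / 3) (2 * (c : ℝ))⁻¹]
  have hεc : 2 * ε ≤ (c : ℝ)⁻¹ := by
    have h1 : ε ≤ (2 * (c : ℝ))⁻¹ := min_le_right _ _
    rw [mul_inv] at h1
    linarith
  obtain ⟨K, hK⟩ := exists_nat_gt ((Nat.totient (p - 1) : ℝ) / (4 * ε ^ 2))
  rw [div_lt_iff₀' (by positivity)] at hK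
  filter_upwards [eventually_injective_pow hg K m₀, Filter.eventually_ge_atTop m₀] with n hsep hn
  haveI : NeZero (p ^ (n + 1)) := ⟨pow_ne_zero _ hp.out.ne_zero⟩
  haveI : Fact (1 < p ^ (n + 1)) := ⟨Nat.one_lt_pow (Nat.succ_ne_zero n) hp.out.one_lt⟩
  set N := p ^ (n + 1) with hN
  haveI : NeZero (d * N) := ⟨Nat.mul_ne_zero (NeZero.ne d) (NeZero.ne N)⟩
  have hNP : p ^ m₀ * p ^ (n + 1 - m₀) = N := by rw [hN, ← pow_add]; congr 1; omega
  have hside : ∀ τ : ℝ, (τ = 1 ∨ τ = -1) → ∃ (β : ZMod N)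
      (y : Fin (Nat.totient (p - 1)) → ℝ), IsUnit β ∧ dist y x₀ < ρ ∧
        |α 1 + y j0 - ((c : ℝ)⁻¹ + τ * ε)| < ε ∧
        ∀ (i t : ℕ), i < p - 1 → ∀ b : ZMod d,
          ((c * fr d N b (β * (gzeta p g n ^ i +
              ((p ^ (n + 1 - m₀) : ℕ) : ZMod N) * (t : ZMod N))) / (d * N) : ℕ) : ℤ) =
            fl c (Φ ((i, t % p ^ m₀), b) y) := fun τ hτ => by
    obtain ⟨b₀, hb₀⟩ := exists_near
      (fun j : Fin (Nat.totient (p - 1)) => gzeta p g n ^ (j : ℕ)) ((p ^ m₀ : ℕ) : ZMod N)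
      (fun j => if (j : ℕ) = 0 then x₀ j + τ * ε else x₀ j) hε hK hsep
    choose m hm using hb₀
    refine ⟨1 + ((p ^ m₀ : ℕ) : ZMod N) * b₀, fun j => (((1 + ((p ^ m₀ : ℕ) : ZMod N) * b₀) *
      gzeta p g n ^ (j : ℕ)).val : ℝ) / N + m j, ?_, ?_, ?_, fun i t hi b => ?_⟩
    · refine isUnit_of_castHom_ne_zero _ ?_
      rw [map_add, map_mul, map_natCast, map_one, Nat.cast_pow, ZMod.natCast_self,
        zero_pow (by omega), zero_mul, add_zero]
      exact one_ne_zero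
    · refine (dist_pi_lt_iff hρ).mpr fun j => ?_
      rw [Real.dist_eq]
      have h := hm j
      by_cases hj : (j : ℕ) = 0
      · simp only [if_pos hj] at h
        rw [abs_lt] at h ⊢
        rcases hτ with rfl | rfl <;> constructor <;> linarith
      · simp only [if_neg hj] at h
        linarith
    · have h := hm j0
      simp only [hx₀, crossPt, show (j0 : ℕ) = 0 from rfl, if_true, ← hN] at h ⊢
      rw [abs_lt] at h ⊢
      simp only [hα]
      constructor <;> linarith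
    · set β := 1 + ((p ^ m₀ : ℕ) : ZMod N) * b₀ with hβ
      set a := p ^ (n + 1 - m₀)
      have hβa : β * ((a : ZMod N) * (t : ZMod N)) = ((a * (t % p ^ m₀) : ℕ) : ZMod N) := by
        have h0 : ((p ^ m₀ : ℕ) : ZMod N) * (a : ZMod N) = 0 := by
          rw [← Nat.cast_mul, hNP, ZMod.natCast_self]
        conv_lhs => arg 2; arg 2; rw [← Nat.mod_add_div t (p ^ m₀)]
        simp only [hβ]
        push_cast at h0 ⊢
        linear_combination (((t / p ^ m₀ : ℕ) : ZMod N) + b₀ * ((t % p ^ m₀ : ℕ) : ZMod N) +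
          b₀ * (p : ZMod N) ^ m₀ * ((t / p ^ m₀ : ℕ) : ZMod N)) * h0
      obtain ⟨z, hz⟩ := exists_int_of_combination
        (fun j : Fin (Nat.totient (p - 1)) => coordCoeff p i j)
        (fun j => β * gzeta p g n ^ (j : ℕ)) m (x := β * gzeta p g n ^ i) (by
          rw [pow_eq_sum_coordCoeff hp2 hg n i, Finset.mul_sum]
          exact Finset.sum_congr rfl fun j _ => by ring)
      obtain ⟨w, hw⟩ : (N : ℤ) ∣
          ((β * gzeta p g n ^ i).val : ℤ) + ((a * (t % p ^ m₀) : ℕ) : ℤ) -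
          ((β * (gzeta p g n ^ i + (a : ZMod N) * (t : ZMod N))).val : ℤ) := by
        rw [← ZMod.intCast_zmod_eq_zero_iff_dvd]
        rw [Int.cast_sub, Int.cast_add, Int.cast_natCast, Int.cast_natCast, Int.cast_natCast,
          ZMod.natCast_zmod_val, ZMod.natCast_zmod_val, mul_add, hβa, sub_self]
      obtain ⟨z', hz'⟩ := exists_int_fr N b (β * (gzeta p g n ^ i + (a : ZMod N) * (t : ZMod N)))
      refine div_eq_floor c (fr_lt _ _ _) ⟨z' + (z + w), ?_⟩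
      have hN0 : (N : ℝ) ≠ 0 := Nat.cast_ne_zero.mpr (NeZero.ne N)
      have hw' := congrArg (fun x : ℤ => (x : ℝ) / N) hw
      simp only [Int.cast_sub, Int.cast_add, Int.cast_mul, Int.cast_natCast, Nat.cast_mul] at hw'
      rw [mul_div_cancel_left₀ _ hN0, sub_div, add_div] at hw'
      have hsig : ((t % p ^ m₀ : ℕ) : ℝ) / (p ^ m₀ : ℕ) =
          (a : ℝ) * ((t % p ^ m₀ : ℕ) : ℝ) / N := by
        rw [← hNP, Nat.cast_mul, mul_comm ((p ^ m₀ : ℕ) : ℝ), mul_div_mul_left]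
        exact Nat.cast_ne_zero.mpr (pow_ne_zero _ hp.out.ne_zero)
      simp only [hΦ, hα, coordForm]
      rw [← hz, hsig]
      push_cast at hz' ⊢
      linarith
  obtain ⟨β, y, hβ, hy, hv, hT⟩ := hside 1 (Or.inl rfl)
  obtain ⟨β', y', hβ', hy', hv', hT'⟩ := hside (-1) (Or.inr rfl)
  rw [abs_lt] at hv hv'
  have hci : (c : ℝ) * (c : ℝ)⁻¹ = 1 := mul_inv_cancel₀ (by positivity)
  have hci2 : (c : ℝ)⁻¹ ≤ 2⁻¹ := inv_anti₀ two_pos hcR
  have hpos : (0 : ℝ) < c := by linarith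
  have hself : ∀ (β : ZMod N) (y : Fin (Nat.totient (p - 1)) → ℝ), (∀ (i t : ℕ), i < p - 1 →
      ∀ b : ZMod d, ((c * fr d N b (β * (gzeta p g n ^ i + ((p ^ (n + 1 - m₀) : ℕ) : ZMod N) *
        (t : ZMod N))) / (d * N) : ℕ) : ℤ) = fl c (Φ ((i, t % p ^ m₀), b) y)) →
      ∀ b : ZMod d, ((c * fr d N b β / (d * N) : ℕ) : ℤ) = fl c (α b + y j0) :=
    fun β y h b => by
    have e := h 0 0 hp1 b
    simp only [pow_zero, Nat.cast_zero, mul_zero, add_zero, mul_one, Nat.zero_mod, hΦ, zero_div,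
      coordForm_zero hp2 _ hr] at e
    exact e
  refine ⟨β, β', hβ, hβ', Int.ofNat_inj.mp ((hself β y hT 1).trans ?_),
    Int.ofNat_inj.mp ((hself β' y' hT' 1).trans ?_), fun j hj b hjb => Int.ofNat_inj.mp ?_⟩
  · have e1 := mul_lt_mul_of_pos_left (show (c : ℝ)⁻¹ < α 1 + y j0 by linarith) hpos
    have e2 := mul_lt_mul_of_pos_left (show α 1 + y j0 < 2 * (c : ℝ)⁻¹ by linarith) hpos
    rw [hci] at e1
    rw [mul_left_comm, hci] at e2
    refine (fl_eq (k := 1) (j := 0) ?_ ?_ ?_ ?_).trans (by push_cast; ring) <;> push_cast <;>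
      linarith
  · have e1 := mul_lt_mul_of_pos_left (show 0 < α 1 + y' j0 by linarith) hpos
    have e2 := mul_lt_mul_of_pos_left (show α 1 + y' j0 < (c : ℝ)⁻¹ by linarith) hpos
    rw [mul_zero] at e1
    rw [hci] at e2
    refine (fl_eq (k := 0) (j := 0) ?_ ?_ ?_ ?_).trans (by push_cast; ring) <;> push_cast <;>
      linarith
  have hkey : ∀ i t, i < p - 1 →
      ((i, t % p ^ m₀), b) ∈ good → (g : ZMod N) ^ (p ^ (n - m₀) * j) =
        gzeta p g n ^ i + ((p ^ (n + 1 - m₀) : ℕ) : ZMod N) * (t : ZMod N) →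
      ((c * fr d N b (β * (g : ZMod N) ^ (p ^ (n - m₀) * j)) / (d * N) : ℕ) : ℤ) =
        ((c * fr d N b (β' * (g : ZMod N) ^ (p ^ (n - m₀) * j)) / (d * N) : ℕ) : ℤ) :=
    fun i t hi hmem ht => by
      rw [ht, hT i t hi b, hT' i t hi b, hball hy _ hmem, hball hy' _ hmem]
  have hin : ∀ i t : ℕ, i < p - 1 →
      ((i, t % p ^ m₀), b) ∈ (Finset.range (p - 1) ×ˢ Finset.range (p ^ m₀)) ×ˢ
        (Finset.univ : Finset (ZMod d)) := fun i t hi =>
    Finset.mem_product.mpr ⟨Finset.mem_product.mpr ⟨Finset.mem_range.mpr hi,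
      Finset.mem_range.mpr (Nat.mod_lt _ (pow_pos hp.out.pos _))⟩, Finset.mem_univ _⟩
  rcases Nat.eq_zero_or_pos j with rfl | hj0
  · refine hkey 0 0 hp1 (Finset.mem_filter.mpr ⟨hin 0 0 hp1, ?_⟩) (by simp)
    rintro ⟨-, ⟨-, hb⟩ | ⟨hb, -⟩⟩
    · exact hjb ⟨rfl, hb⟩
    · exact hh0 hb
  obtain ⟨t, ht⟩ := exists_pow_eq_add hg hn j
  have hperiod : gzeta p g n ^ j = gzeta p g n ^ (j % (p - 1)) :=
    pow_eq_pow_mod j (gzeta_pow_card hg n)
  have hi := Nat.mod_lt j hp1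
  refine hkey _ t hi (Finset.mem_filter.mpr ⟨hin _ t hi, ?_⟩) (hperiod ▸ ht)
  rintro ⟨hσ, hpm⟩
  obtain ⟨q, hq⟩ := Nat.dvd_of_mod_eq_zero hσ
  have hsq : (g : ZMod N) ^ (p ^ (n - m₀) * j * 2) = 1 := by
    rw [pow_mul, ht, hq, Nat.cast_mul, ← mul_assoc, ← Nat.cast_mul, mul_comm (p ^ (n + 1 - m₀)),
      hNP, ZMod.natCast_self, zero_mul, add_zero, hperiod]
    rcases hpm with ⟨h, -⟩ | ⟨h, -⟩ <;> simp only at h <;> rw [h]
    · simp
    · rw [gzeta_pow_half hp2 hg, neg_one_sq]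
  rw [← orderOf_dvd_iff_pow_eq_one, hN, hg.2 n,
    show (p - 1) * p ^ n = p ^ (n - m₀) * ((p - 1) * p ^ m₀) by
      rw [mul_left_comm, ← pow_add]; congr 2; omega, mul_assoc,
    mul_dvd_mul_iff_left (pow_ne_zero _ hp.out.ne_zero)] at hsq
  have hlt : j * 2 < (p - 1) * p ^ m₀ := by
    calc j * 2 < (p - 1) / 2 * p ^ m₀ * 2 := Nat.mul_lt_mul_of_pos_right hj two_pos
      _ = (p - 1) / 2 * 2 * p ^ m₀ := by ring
      _ ≤ (p - 1) * p ^ m₀ := Nat.mul_le_mul_right _ (Nat.div_mul_le_self _ _)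
  exact absurd (Nat.le_of_dvd (by omega) hsq) (not_le.mpr hlt)

end FA.WashingtonAbelian
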