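import Fermat.Agent.IwasawaMinus.Residue

/-!
# A base field for twisted branches in characteristic `ℓ`

Over the field with `ℓ ^ N!` elements, `p - 1 ≤ N`, a root of unity of order dividing `(p - 1) p^n`
and not `(p - 1) p^(n-1)` has its powers below `p^(n - m₀)` independent, `p ^ m₀` the exact power of
`p` dividing `ℓ ^ N! - 1` (`coeff_eq_zero_of_sum`); the field contains all roots of unity of order
at most `N` (`mem_base_of_pow_le`).
-/

set_option autoImplicit false
set_option linter.unusedSectionVars false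
set_option linter.style.haveILetI false

noncomputable section

open Polynomial

namespace FA.WashingtonAbelian

variable (N p ℓ : ℕ)

/-- The order of the field. -/
def baseSize : ℕ := ℓ ^ N.factorial

/-- The bound `m₀`. -/
def baseLevel : ℕ := padicValNat p (baseSize N ℓ - 1)

variable {N p ℓ} [hp : Fact p.Prime] [hl : Fact ℓ.Prime]

theorem one_lt_baseSize : 1 < baseSize N ℓ :=
  Nat.one_lt_pow (Nat.factorial_pos _).ne' hl.out.one_lt

theorem dvd_baseSize_sub_one {d : ℕ} (hd : Nat.Coprime ℓ d) (h : d.totient ≤ N) (h0 : 0 < d) :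
    d ∣ baseSize N ℓ - 1 := by
  obtain ⟨q, hq⟩ : d.totient ∣ N.factorial := Nat.dvd_factorial (Nat.totient_pos.mpr h0) h
  have := (Nat.ModEq.pow_totient hd).pow q
  rw [one_pow, ← pow_mul, ← hq] at this
  exact (Nat.modEq_iff_dvd' (Nat.one_le_pow _ _ hl.out.pos)).mp this.symm

theorem one_le_baseLevel (hne : ℓ ≠ p) (hN : p - 1 ≤ N) : 1 ≤ baseLevel N p ℓ := by
  refine one_le_padicValNat_of_dvd (by have := one_lt_baseSize (N := N) (ℓ := ℓ); omega) ?_
  exact dvd_baseSize_sub_one ((Nat.coprime_primes hl.out hp.out).mpr hne)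
    ((Nat.totient_prime hp.out).le.trans hN) hp.out.pos

section CharL

variable {K : Type*} [Field K] [CharP K ℓ]

/-- The field with `baseSize` elements. -/
def base (N ℓ : ℕ) [Fact ℓ.Prime] (K : Type*) [Field K] [CharP K ℓ] : Subfield K :=
  (iterateFrobenius K ℓ N.factorial).eqLocusField (RingHom.id K)

theorem mem_base {x : K} : x ∈ base N ℓ K ↔ x ^ baseSize N ℓ = x := by
  rw [base, RingHom.mem_eqLocusField, iterateFrobenius_def, RingHom.id_apply, baseSize]

theorem mem_base_of_dvd {x : K} (h : x ^ (baseSize N ℓ - 1) = 1) : x ∈ base N ℓ K := by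
  rw [mem_base]
  calc x ^ baseSize N ℓ = x ^ (baseSize N ℓ - 1 + 1) := by
        rw [Nat.sub_add_cancel (one_lt_baseSize (N := N) (ℓ := ℓ)).le]
    _ = x := by rw [pow_succ, h, one_mul]

/-- The order of a root of unity is prime to the characteristic. -/
theorem coprime_orderOf {x : K} (hx : IsOfFinOrder x) : Nat.Coprime ℓ (orderOf x) := by
  refine hl.out.coprime_iff_not_dvd.mpr fun ⟨e, he⟩ => ?_
  have he0 : 0 < e := Nat.pos_of_ne_zero fun h => by
    rw [h, mul_zero] at he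
    exact hx.orderOf_pos.ne' he
  have h1 : (x ^ e) ^ ℓ = 1 := by rw [← pow_mul, mul_comm, ← he, pow_orderOf_eq_one]
  have h2 : x ^ e = 1 := by
    have h3 : (x ^ e - 1) ^ ℓ = 0 := by rw [sub_pow_char, h1, one_pow, sub_self]
    exact sub_eq_zero.mp ((pow_eq_zero_iff hl.out.ne_zero).mp h3)
  have h4 := Nat.le_of_dvd he0 (orderOf_dvd_of_pow_eq_one h2)
  rw [he] at h4
  exact absurd h4 (not_le.2 (lt_mul_left he0 hl.out.one_lt))

/-- **The roots of unity of small order.** -/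
theorem mem_base_of_pow_le {x : K} {m : ℕ} (hm : 0 < m) (hmN : m ≤ N) (hx : x ^ m = 1) :
    x ∈ base N ℓ K := by
  have hfin : IsOfFinOrder x := isOfFinOrder_iff_pow_eq_one.mpr ⟨m, hm, hx⟩
  refine mem_base_of_dvd (orderOf_dvd_iff_pow_eq_one.1 ?_)
  exact dvd_baseSize_sub_one (coprime_orderOf hfin) ((Nat.totient_le _).trans
    ((Nat.le_of_dvd hm (orderOf_dvd_of_pow_eq_one hx)).trans hmN)) hfin.orderOf_pos

theorem mem_base_of_pow (hN : p - 1 ≤ N) {x : K}
    (hx : x ^ ((p - 1) * p ^ baseLevel N p ℓ) = 1) : x ∈ base N ℓ K := by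
  have hp1 : 0 < p - 1 := Nat.sub_pos_of_lt hp.out.one_lt
  have hfin : IsOfFinOrder x :=
    isOfFinOrder_iff_pow_eq_one.mpr ⟨_, Nat.mul_pos hp1 (pow_pos hp.out.pos _), hx⟩
  set d := orderOf x with hd
  have hd0 : 0 < d := hfin.orderOf_pos
  have hdvd : d ∣ (p - 1) * p ^ baseLevel N p ℓ := orderOf_dvd_of_pow_eq_one hx
  have hcop2 : Nat.Coprime (p - 1) (p ^ baseLevel N p ℓ) := by
    refine Nat.Coprime.pow_right _ (Nat.coprime_comm.mp
      (hp.out.coprime_iff_not_dvd.mpr fun h => ?_))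
    have := Nat.le_of_dvd hp1 h
    omega
  refine mem_base_of_dvd (orderOf_dvd_iff_pow_eq_one.1 ?_)
  rw [← hd, show d = Nat.gcd d (p - 1) * Nat.gcd d (p ^ baseLevel N p ℓ) by
    rw [← hcop2.gcd_mul, Nat.gcd_eq_left hdvd]]
  refine Nat.Coprime.mul_dvd_of_dvd_of_dvd (Nat.Coprime.coprime_dvd_left (Nat.gcd_dvd_right _ _)
    (hcop2.coprime_dvd_right (Nat.gcd_dvd_right _ _))) ?_
    ((Nat.gcd_dvd_right _ _).trans pow_padicValNat_dvd)
  refine dvd_baseSize_sub_one ((coprime_orderOf hfin).coprime_dvd_right (Nat.gcd_dvd_left _ _)) ?_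
    (Nat.gcd_pos_of_pos_left _ hd0)
  exact ((Nat.totient_le _).trans (Nat.le_of_dvd hp1 (Nat.gcd_dvd_right _ _))).trans hN

theorem pow_baseSize_sub_one {x : K} (hx : x ∈ base N ℓ K) (h0 : x ≠ 0) :
    x ^ (baseSize N ℓ - 1) = 1 := by
  rw [mem_base] at hx
  refine mul_right_cancel₀ h0 ?_
  rw [← pow_succ, Nat.sub_add_cancel (one_lt_baseSize (N := N) (ℓ := ℓ)).le, hx, one_mul]

variable {e : K} {n : ℕ}

/-- A root of unity of high order is outside the field. -/
theorem not_mem_base (he : e ^ ((p - 1) * p ^ n) = 1) (he' : e ^ ((p - 1) * p ^ (n - 1)) ≠ 1)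
    (hn : baseLevel N p ℓ < n) : e ∉ base N ℓ K := fun hmem => by
  obtain ⟨k, rfl⟩ : ∃ k, n = k + 1 := ⟨n - 1, by omega⟩
  have he0 : e ≠ 0 := fun h => by
    rw [h, zero_pow (mul_ne_zero
      (Nat.sub_pos_of_lt hp.out.one_lt).ne' (pow_ne_zero _ hp.out.ne_zero))] at he
    exact zero_ne_one he
  have hord : orderOf (e ^ (p - 1)) = p ^ (k + 1) :=
    orderOf_eq_prime_pow (by rw [← pow_mul]; simpa using he') (by rw [← pow_mul]; exact he)
  have hdvd : p ^ (k + 1) ∣ baseSize N ℓ - 1 := hord ▸ orderOf_dvd_of_pow_eq_one (by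
    rw [← pow_mul, mul_comm, pow_mul, pow_baseSize_sub_one hmem he0, one_pow])
  have := (padicValNat_dvd_iff_le (by have := one_lt_baseSize (N := N) (ℓ := ℓ); omega)).mp hdvd
  rw [baseLevel] at hn
  omega

/-- **The powers below `p ^ (n - m₀)` are independent over the field.** -/
theorem coeff_eq_zero_of_sum (hp2 : p ≠ 2) (hne : ℓ ≠ p) (hN : p - 1 ≤ N)
    (he : e ^ ((p - 1) * p ^ n) = 1) (he' : e ^ ((p - 1) * p ^ (n - 1)) ≠ 1)
    (hn : baseLevel N p ℓ < n) (C₀ : ℕ → base N ℓ K)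
    (hsum : ∑ r ∈ Finset.range (p ^ (n - baseLevel N p ℓ)), (C₀ r : K) * e ^ r = 0) {r : ℕ}
    (hr : r < p ^ (n - baseLevel N p ℓ)) : C₀ r = 0 := by
  set m₀ := baseLevel N p ℓ with hm₀
  set M := p ^ (n - m₀) with hM
  have h1 := one_le_baseLevel (p := p) hne hN
  have hMP : (p - 1) * p ^ n = M * ((p - 1) * p ^ m₀) := by
    rw [hM, mul_left_comm, ← pow_add]
    congr 2
    omega
  set a : base N ℓ K := ⟨e ^ M, mem_base_of_pow (p := p) hN (by rw [← pow_mul, ← hm₀, ← hMP, he])⟩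
  have hirr : Irreducible (X ^ M - C a) := by
    refine X_pow_sub_C_irreducible_of_prime_pow hp.out hp2 (n - m₀) fun b hb => he' ?_
    have hb' : (b : K) ^ p = e ^ M := congrArg (fun x : base N ℓ K => (x : K)) hb
    have hb0 : (b : K) ≠ 0 := fun h => by
      rw [h, zero_pow hp.out.ne_zero, eq_comm] at hb'
      have := congrArg (· ^ ((p - 1) * p ^ m₀)) hb'
      simp only [← pow_mul, ← hMP, he, zero_pow (mul_ne_zero
        (Nat.sub_pos_of_lt hp.out.one_lt).ne' (pow_ne_zero m₀ hp.out.ne_zero))] at this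
      exact one_ne_zero this
    obtain ⟨q, hq⟩ : p ^ m₀ ∣ baseSize N ℓ - 1 := pow_padicValNat_dvd
    have hQ0 : baseSize N ℓ - 1 ≠ 0 := by have := one_lt_baseSize (N := N) (ℓ := ℓ); omega
    have hq' : ¬ p ∣ q := fun ⟨t, ht⟩ => pow_succ_padicValNat_not_dvd (p := p) hQ0
      (Dvd.intro t (by rw [← baseLevel, ← hm₀, hq, ht, pow_succ, ← mul_assoc]))
    have hy1 : ((b : K) ^ (p - 1)) ^ p ^ (m₀ + 1) = 1 := by
      rw [← pow_mul, pow_succ, ← mul_assoc, pow_mul, ← pow_mul (b : K),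
        mul_comm ((p - 1) * p ^ m₀) p, pow_mul, hb', ← pow_mul, ← hMP, he]
    have hy2 : ((b : K) ^ (p - 1)) ^ p ^ m₀ = 1 := by
      have hy3 : orderOf ((b : K) ^ (p - 1)) ∣ p ^ m₀ * q := orderOf_dvd_of_pow_eq_one (by
        rw [← hq, ← pow_mul, mul_comm, pow_mul, pow_baseSize_sub_one b.2 hb0, one_pow])
      refine orderOf_dvd_iff_pow_eq_one.mp (Nat.Coprime.dvd_of_dvd_mul_right ?_ hy3)
      exact Nat.Coprime.coprime_dvd_left (orderOf_dvd_of_pow_eq_one hy1)
        (Nat.Coprime.pow_left _ (hp.out.coprime_iff_not_dvd.mpr hq'))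
    have hexp : (p - 1) * p ^ (n - 1) = M * ((p - 1) * p ^ (m₀ - 1)) := by
      rw [hM, mul_left_comm, ← pow_add]
      congr 2
      omega
    rw [hexp, pow_mul, ← hb', ← pow_mul, mul_left_comm, ← pow_succ', Nat.sub_add_cancel h1,
      pow_mul, hy2]
  set G : (base N ℓ K)[X] := ∑ r ∈ Finset.range M, C (C₀ r) * X ^ r with hG
  have hM0 : M ≠ 0 := by rw [hM]; exact pow_ne_zero _ hp.out.ne_zero
  have hmin := minpoly.eq_of_irreducible_of_monic hirr (x := e) (by
    rw [map_sub, map_pow, aeval_X, aeval_C]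
    exact sub_self _) (monic_X_pow_sub_C a hM0)
  have hdvd : X ^ M - C a ∣ G := by
    rw [hmin]
    refine minpoly.dvd _ _ ?_
    rw [hG, map_sum, Finset.sum_congr rfl fun r _ =>
      show aeval e (C (C₀ r) * X ^ r) = (C₀ r : K) * e ^ r by
        rw [map_mul, aeval_C, map_pow, aeval_X]; rfl]
    exact hsum
  have hdeg : G.degree < (X ^ M - C a).degree := by
    rw [degree_X_pow_sub_C (Nat.pos_of_ne_zero hM0), hG]
    exact (degree_sum_le _ _).trans_lt ((Finset.sup_lt_iff (WithBot.bot_lt_coe _)).mpr fun l hl =>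
      (degree_C_mul_X_pow_le _ _).trans_lt (by exact_mod_cast Finset.mem_range.mp hl))
  have h0 := congrArg (fun f => coeff f r) (eq_zero_of_dvd_of_degree_lt hdvd hdeg)
  simp only [hG, finsetSum_coeff, coeff_C_mul_X_pow, coeff_zero] at h0
  rwa [Finset.sum_eq_single r (fun l _ hl => if_neg fun e => hl e.symm)
    (fun h => absurd (Finset.mem_range.mpr hr) h), if_pos rfl] at h0

end CharL

end FA.WashingtonAbelian
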