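import Fermat.Agent.IwasawaMinus.EllPart
import Fermat.Agent.FerreroAbelian.Branch
import Fermat.Agent.WashingtonAbelian.Crossing
import Fermat.Agent.WashingtonAbelian.Residue

/-!
# Twisted values at characters of high conductor are `ℓ`-adically large

In characteristic `ℓ` a twisted Stickelberger polynomial of level `n` does not vanish at a root of
unity of full level `n` and the right parity, `n` large (`eventually_poly_eval_ne_zero`), so the
values `(1/N) ∑ χ(a) η ^ k r_{a,k}` have absolute value at least `1` (`eventually_one_le_norm_bv`).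
-/

set_option autoImplicit false
set_option linter.unusedSectionVars false
set_option linter.style.haveILetI false

noncomputable section

open Polynomial
open FA.IwasawaMinus (IsGen gzeta exists_pow_genUnit genUnit genUnit_val sum_range_shift
  sum_range_mul' pow_half_eq_neg_one)
open FA.FerreroAbelian (fr res cF coefA poly bv)
open scoped Classical

namespace FA.WashingtonAbelian

variable {p : ℕ} [hp : Fact p.Prime] {d g : ℕ} [NeZero d]

theorem isUnit_gen_pow (hg : IsGen p g) (n k : ℕ) : IsUnit ((g : ZMod (p ^ (n + 1))) ^ k) := by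
  rw [← genUnit_val hg n]
  exact (genUnit hg n).isUnit.pow k

/-- The coefficient is odd. -/
theorem coefA_neg (hp2 : p ≠ 2) (hg : IsGen p g) (hd : d.Coprime p) (n : ℕ) (a : ZMod d) (k : ℕ) :
    coefA d p g n (-a) (k + (p - 1) / 2 * p ^ n) = -coefA d p g n a k := by
  haveI : NeZero (p ^ (n + 1)) := ⟨pow_ne_zero _ hp.out.ne_zero⟩
  haveI : Fact (1 < p ^ (n + 1)) := ⟨Nat.one_lt_pow (Nat.succ_ne_zero n) hp.out.one_lt⟩
  set P := p ^ (n + 1) with hP
  set r := res d p g n a k with hr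
  set c := cF p d with hc
  have hrN : r < d * P := FA.FerreroAbelian.res_lt n a k
  have hcop : P.Coprime c :=
    Nat.Coprime.pow_left _ (hp.out.coprime_iff_not_dvd.2 FA.FerreroAbelian.not_dvd_cF)
  have hndvd : ¬ P ∣ r := fun h => (isUnit_gen_pow hg n k).ne_zero (by
    rw [← FA.FerreroAbelian.cast_res_right hd n a k]
    exact (ZMod.natCast_eq_zero_iff _ _).2 h)
  have hr0 : 0 < r := Nat.pos_of_ne_zero fun h => hndvd (h ▸ dvd_zero P)
  have hr' : res d p g n (-a) (k + (p - 1) / 2 * p ^ n) = d * P - r := by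
    refine FA.FerreroAbelian.eq_of_casts (FA.FerreroAbelian.coprime_level hd n)
      (FA.FerreroAbelian.res_lt _ _ _) (Nat.sub_lt (hr0.trans hrN) hr0) ?_ ?_
    · rw [FA.FerreroAbelian.cast_res_left hd, Nat.cast_sub hrN.le, Nat.cast_mul,
        ZMod.natCast_self, zero_mul, zero_sub, hr, FA.FerreroAbelian.cast_res_left hd]
    · rw [FA.FerreroAbelian.cast_res_right hd, Nat.cast_sub hrN.le, Nat.cast_mul,
        ZMod.natCast_self, mul_zero, zero_sub, hr, FA.FerreroAbelian.cast_res_right hd,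
        pow_add (g : ZMod P) k, FA.IwasawaMinus.gen_pow_half hp2 hg n, mul_neg_one]
  have hs : c * r % (d * P) ≠ 0 := fun h =>
    hndvd (hcop.dvd_of_dvd_mul_left ((dvd_mul_left P d).trans (Nat.dvd_of_mod_eq_zero h)))
  have hq := Nat.div_add_mod (c * r) (d * P)
  have hsN := Nat.mod_lt (c * r) (hr0.trans hrN)
  have hqdef : c * r / (d * P) < c := (Nat.div_lt_iff_lt_mul (hr0.trans hrN)).2
    (Nat.mul_lt_mul_of_pos_left hrN (by rw [hc, cF]; omega))
  have hc1 : 1 ≤ c := by rw [hc, cF]; exact Nat.le_add_right 1 _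
  have hqle : c * r / (d * P) ≤ c - 1 := Nat.le_pred_of_lt hqdef
  have hdiv : c * (d * P - r) / (d * P) = c - 1 - c * r / (d * P) := by
    generalize c * r / (d * P) = q at hq hqdef hqle
    generalize c * r % (d * P) = s at hq hs hsN
    have hs1 : (1 : ℤ) ≤ s := by exact_mod_cast Nat.one_le_iff_ne_zero.2 hs
    have hsz : (s : ℤ) < (d * P : ℕ) := by exact_mod_cast hsN
    have hqz : ((d * P : ℕ) : ℤ) * q + s = (c : ℤ) * r := by exact_mod_cast hq
    push_cast at hsz hqz
    refine Nat.div_eq_of_lt_le ?_ ?_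
    · zify [hrN.le, show 1 ≤ c by omega, show q ≤ c - 1 by omega]
      nlinarith
    · zify [hrN.le, show 1 ≤ c by omega, show q ≤ c - 1 by omega]
      nlinarith
  rw [coefA, coefA, hr', ← hP, ← hc, hdiv, ← hr,
    Nat.cast_sub hqle, Nat.cast_sub hc1]
  ring

variable {ℓ : ℕ} [hl : Fact ℓ.Prime]

/-- **The polynomial in characteristic `ℓ` does not vanish.** -/
theorem eventually_poly_eval_ne_zero (hp2 : p ≠ 2) (hl2 : ℓ ≠ 2) (hne : ℓ ≠ p) (hg : IsGen p g)
    (hd : d.Coprime p) {N : ℕ} (hN : p - 1 ≤ N) (K : Type*) [Field K] [CharP K ℓ] :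
    ∀ᶠ n in Filter.atTop, ∀ (e : K) (ψ : ZMod d → K), e ^ ((p - 1) * p ^ n) = 1 →
      e ^ ((p - 1) * p ^ (n - 1)) ≠ 1 → (∀ a, ψ a ∈ base N ℓ K) → ψ 1 = 1 →
      (∀ a b, ψ (a * b) = ψ a * ψ b) → e ^ ((p - 1) / 2 * p ^ n) * ψ (-1) = -1 →
      (poly ψ p g n).eval e ≠ 0 := by
  have hc2 : 2 ≤ cF p d := by
    have := Nat.mul_pos hp.out.pos (NeZero.pos d)
    rw [cF]
    omega
  have h2K : (2 : K) ≠ 0 := fun h => hl2 ((Nat.prime_dvd_prime_iff_eq hl.out Nat.prime_two).1
    ((CharP.cast_eq_zero_iff K ℓ 2).1 (by exact_mod_cast h)))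
  set m₀ := baseLevel N p ℓ with hm₀
  filter_upwards [eventually_single_jump hp2 hg hd hc2 FA.FerreroAbelian.not_dvd_cF
    FA.FerreroAbelian.cast_cF_left (one_le_baseLevel (p := p) hne hN),
    Filter.eventually_gt_atTop m₀] with n hjump hn e ψ he he' hmem hψ1 hψm hodd hB
  obtain ⟨β, β', hβ, hβ', hT1, hT0, hT⟩ := hjump
  haveI : NeZero (p ^ (n + 1)) := ⟨pow_ne_zero _ hp.out.ne_zero⟩
  set H := (p - 1) / 2 * p ^ n with hH
  set M := p ^ (n - m₀) with hM
  set J := (p - 1) / 2 * p ^ m₀ with hJ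
  have hJpos : 0 < J := by
    have := hp.out.two_le
    exact Nat.mul_pos (by omega) (pow_pos hp.out.pos _)
  have hMJ : H = M * J := by
    rw [hH, hM, hJ, mul_left_comm, ← pow_add]
    congr 2
    omega
  have hneg : ψ (-1) * ψ (-1) = 1 := by rw [← hψm, neg_mul_neg, one_mul, hψ1]
  set S : ℕ → K := fun k => ∑ a, ψ a * (coefA d p g n a k : K) with hS
  have hfold : ∀ k, e ^ H * S (k + H) = S k := fun k => by
    have e1 : S (k + H) = ψ (-1) * -S k := by
      rw [hS]
      simp only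
      rw [← Equiv.sum_comp (Equiv.neg (ZMod d)), ← Finset.sum_neg_distrib, Finset.mul_sum]
      refine Finset.sum_congr rfl fun a _ => ?_
      rw [Equiv.neg_apply, coefA_neg hp2 hg hd, show -a = -1 * a by ring, hψm]
      push_cast
      ring
    rw [e1, ← mul_assoc, hodd, neg_mul_neg, one_mul]
  have he0 : e ≠ 0 := fun h => by
    rw [h, zero_pow (mul_ne_zero (Nat.sub_pos_of_lt hp.out.one_lt).ne'
      (pow_ne_zero _ hp.out.ne_zero))] at he
    exact zero_ne_one he
  set a := e ^ M with ha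
  have hamem : a ∈ base N ℓ K := mem_base_of_pow (p := p) hN (by
    rw [ha, ← pow_mul, show M * ((p - 1) * p ^ baseLevel N p ℓ) = (p - 1) * p ^ n by
      rw [hM, ← hm₀, mul_left_comm, ← pow_add]; congr 2; omega]
    exact he)
  have haJ : a ^ J = e ^ H := by rw [ha, ← pow_mul, ← hMJ]
  set G : ℕ → K := fun k => ∑ j ∈ Finset.range J, a ^ j * S (k + j * M) with hG
  have hGr : ∀ r < M, G r = 0 := fun r hr => by
    have hGmem : ∀ k, G k ∈ base N ℓ K := fun k => sum_mem fun j _ =>
      mul_mem (pow_mem hamem j) (sum_mem fun b _ => mul_mem (hmem b) (intCast_mem _ _))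
    have h := coeff_eq_zero_of_sum (p := p) (ℓ := ℓ) hp2 hne hN he he' hn
      (fun k => ⟨G k, hGmem k⟩) ?_ hr
    · exact congrArg (fun x : base N ℓ K => (x : K)) h
    have h0 : ∑ k ∈ Finset.range H, S k * e ^ k = 0 := by
      refine (mul_eq_zero.mp (?_ : (2 : K) * ∑ k ∈ Finset.range H, S k * e ^ k = 0)).resolve_left
        h2K
      rw [poly, eval_finsetSum, show (p - 1) * p ^ n = H + H by
        rw [hH, ← add_mul, ← two_mul,
          Nat.mul_div_cancel' ((hp.out.odd_of_ne_two hp2).tsub_odd odd_one).two_dvd],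
        Finset.sum_range_add, ← Finset.sum_add_distrib] at hB
      rw [← hB, Finset.mul_sum]
      refine Finset.sum_congr rfl fun k _ => ?_
      simp only [eval_mul, eval_C, eval_pow, eval_X]
      rw [pow_add, add_comm H k]
      linear_combination -(e ^ k) * hfold k
    rw [← h0, hMJ, sum_range_mul', Finset.sum_comm]
    refine Finset.sum_congr rfl fun r _ => ?_
    simp only [hG, Finset.sum_mul]
    refine Finset.sum_congr rfl fun j _ => ?_
    rw [add_comm (j * M) r, pow_add, mul_comm j, pow_mul, ← ha]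
    ring
  have hG0 : ∀ k, G k = 0 := fun k => by
    have hk : k = k % M + (k / M) * M := by rw [mul_comm]; exact (Nat.mod_add_div k M).symm
    set r := k % M
    set t := k / M
    have hper : ∀ j, a ^ (j + J) * S (r + (j + J) * M) = a ^ j * S (r + j * M) := fun j => by
      rw [pow_add, haJ, show r + (j + J) * M = r + j * M + H by rw [hMJ]; ring, mul_assoc, hfold]
    have hshift := sum_range_shift (fun j => a ^ j * S (r + j * M)) hper t
    refine (mul_eq_zero.mp (?_ : a ^ t * G k = 0)).resolve_left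
      (pow_ne_zero _ (pow_ne_zero _ he0))
    rw [← hGr r (Nat.mod_lt _ (pow_pos hp.out.pos _)), hG]
    simp only
    rw [← hshift, Finset.mul_sum]
    refine Finset.sum_congr rfl fun j _ => ?_
    rw [hk, show r + t * M + j * M = r + (j + t) * M by ring, pow_add]
    ring
  -- the sums over a coset vanish
  set ed : ZMod (p ^ (n + 1)) := (d : ZMod (p ^ (n + 1)))⁻¹ with hed
  have hde : (d : ZMod (p ^ (n + 1))) * ed = 1 :=
    FA.FerreroAbelian.natCast_mul_inv (FA.FerreroAbelian.coprime_level hd n)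
  set u : ZMod d := ((p ^ (n + 1) : ℕ) : ZMod d) with hu
  have hPu : u * u⁻¹ = 1 :=
    ZMod.coe_mul_inv_eq_one _ (FA.FerreroAbelian.coprime_level hd n).symm
  have hψu : ψ u ≠ 0 := fun h0 => by
    have := hψm u u⁻¹
    rw [hPu, hψ1, h0, zero_mul] at this
    exact one_ne_zero this
  set F : ZMod d → ZMod (p ^ (n + 1)) → ℕ :=
    fun b y => cF p d * fr d (p ^ (n + 1)) b y / (d * p ^ (n + 1)) with hF
  have hval : ∀ γ : ZMod (p ^ (n + 1)), IsUnit γ → ∑ j ∈ Finset.range J, a ^ j *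
      ∑ b, ψ b *
        (((2 * (F b (γ * (g : ZMod (p ^ (n + 1))) ^ (M * j)) : ℤ) + 1 - cF p d : ℤ)) : K)
        = 0 := fun γ hγ => by
    obtain ⟨k, -, hk⟩ := exists_pow_genUnit hg n ((IsUnit.of_mul_eq_one _ hde).mul hγ).unit
    have hk' : (g : ZMod (p ^ (n + 1))) ^ k = (d : ZMod (p ^ (n + 1))) * γ := by
      rw [← genUnit_val hg n, ← Units.val_pow_eq_pow_val, hk, IsUnit.unit_spec]
    refine (mul_eq_zero.mp (?_ : ψ u * _ = 0)).resolve_left hψu
    rw [← hG0 k, hG, Finset.mul_sum]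
    refine Finset.sum_congr rfl fun j _ => ?_
    rw [mul_left_comm, Finset.mul_sum]
    congr 1
    simp only [hS]
    refine Fintype.sum_bijective (fun b : ZMod d => u * b) (Function.bijective_iff_has_inverse.2
      ⟨fun x => u⁻¹ * x, fun b => by
        simp only
        rw [← mul_assoc, mul_comm _ u, hPu, one_mul], fun x => by
        simp only
        rw [← mul_assoc, hPu, one_mul]⟩) _ _ fun b => ?_
    have hy : ed * (g : ZMod (p ^ (n + 1))) ^ (k + j * M) =
        γ * (g : ZMod (p ^ (n + 1))) ^ (M * j) := by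
      rw [pow_add (g : ZMod (p ^ (n + 1))) k, hk', ← mul_assoc, ← mul_assoc,
        mul_comm ed, hde, one_mul, mul_comm j]
    rw [hψm, coefA, res, ← hu, ← mul_assoc u⁻¹, mul_comm _ u, hPu, one_mul, ← hed, hy, mul_assoc]
  have h1 := hval β hβ
  have h2 := hval β' hβ'
  have hdiff : ∑ j ∈ Finset.range J, a ^ j *
      ∑ b, ψ b * ((F b (β * (g : ZMod (p ^ (n + 1))) ^ (M * j)) : K) -
        F b (β' * (g : ZMod (p ^ (n + 1))) ^ (M * j))) = 0 := by
    refine (mul_eq_zero.mp (?_ : (2 : K) * _ = 0)).resolve_left h2K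
    have h := congrArg₂ (· - ·) h1 h2
    simp only [sub_self, ← Finset.sum_sub_distrib, ← mul_sub] at h
    refine Eq.trans ?_ h
    simp only [Finset.mul_sum]
    refine Finset.sum_congr rfl fun j _ => Finset.sum_congr rfl fun b _ => ?_
    push_cast
    ring
  rw [Finset.sum_eq_single 0 (fun j hj hj0 => ?_)
    (fun h => absurd (Finset.mem_range.2 hJpos) h), Finset.sum_eq_single 1 (fun b _ hb => ?_)
    (fun h => absurd (Finset.mem_univ _) h)] at hdiff
  · simp only [hF, mul_zero, pow_zero, mul_one, one_mul, hψ1, hT1, hT0, Nat.cast_one,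
      Nat.cast_zero, sub_zero] at hdiff
    exact one_ne_zero hdiff
  · have h := hT 0 hJpos b fun h => hb h.2
    simp only [hF]
    rw [h, sub_self, mul_zero]
  · refine mul_eq_zero_of_right _ (Finset.sum_eq_zero fun b _ => ?_)
    have h := hT j (Finset.mem_range.1 hj) b fun h => hj0 h.1
    simp only [hF]
    rw [h, sub_self, mul_zero]

/-- **The values are at least one.** -/
theorem eventually_one_le_norm_bv (hp2 : p ≠ 2) (hl2 : ℓ ≠ 2) (hne : ℓ ≠ p) (hg : IsGen p g)
    (hd : d.Coprime p) :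
    ∀ᶠ k in Filter.atTop, ∀ (η : PadicAlgCl ℓ) (χ : ZMod d → PadicAlgCl ℓ),
      η ^ ((p - 1) * p ^ (k + 1)) = 1 → η ^ ((p - 1) * p ^ k) ≠ 1 → χ 1 = 1 →
      (∀ a b, χ (a * b) = χ a * χ b) → (∀ a, χ a = 0 ∨ χ a ^ Nat.totient d = 1) →
      η ^ ((p - 1) / 2 * p ^ (k + 1)) * χ (-1) = -1 →
      1 ≤ ‖bv d p g (k + 1) χ η‖ := by
  have hev := eventually_poly_eval_ne_zero (p := p) (d := d) (g := g) (ℓ := ℓ) hp2 hl2 hne hg hd
    (le_max_left (p - 1) d) (IsLocalRing.ResidueField (FA.IwasawaMinus.unitBall ℓ))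
  filter_upwards [(Filter.tendsto_add_atTop_nat 1).eventually hev] with k hk η χ h1 h3 hχ1 hχm
    hχv hodd
  haveI : NeZero (p ^ (k + 1 + 1)) := ⟨pow_ne_zero _ hp.out.ne_zero⟩
  have hφ : ∀ i, 0 < (p - 1) * p ^ i := fun i =>
    Nat.mul_pos (Nat.sub_pos_of_lt hp.out.one_lt) (pow_pos hp.out.pos _)
  have hn1 : ‖η‖ = 1 := FA.IwasawaMinus.norm_eq_one_of_pow h1 (hφ _).ne'
  set e : FA.IwasawaMinus.unitBall ℓ := ⟨η, FA.IwasawaMinus.mem_unitBall.mpr hn1.le⟩
  set χ₀ : ZMod d → FA.IwasawaMinus.unitBall ℓ := fun a =>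
    ⟨χ a, FA.IwasawaMinus.mem_unitBall.mpr (by
      rcases hχv a with h | h
      · rw [h, norm_zero]
        exact zero_le_one
      · exact (FA.IwasawaMinus.norm_eq_one_of_pow h (Nat.totient_pos.2 (NeZero.pos d)).ne').le)⟩
    with hχ₀
  set π := IsLocalRing.residue (FA.IwasawaMinus.unitBall ℓ)
  have hπ : π e ^ ((p - 1) * p ^ k) ≠ 1 := fun h => by
    set x := η ^ ((p - 1) * p ^ k) with hx
    have hxp : IsPrimitiveRoot x p := by
      refine IsPrimitiveRoot.iff_orderOf.mpr (orderOf_eq_prime ?_ h3)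
      rw [hx, ← pow_mul, mul_assoc, ← pow_succ, h1]
    rw [← map_pow, ← sub_eq_zero, ← map_one π, ← map_sub,
      FA.IwasawaMinus.residue_eq_zero_iff] at h
    have hlt : ‖x - 1‖ < 1 := h
    have hprime : ‖(p : PadicAlgCl ℓ)‖ = 1 := FA.IwasawaMinus.norm_natCast_eq_one
      fun hd => hne ((Nat.prime_dvd_prime_iff_eq hl.out hp.out).mp hd)
    have hphi := eval_one_cyclotomic_prime (R := PadicAlgCl ℓ) (p := p)
    rw [cyclotomic_eq_prod_X_sub_primitiveRoots hxp, eval_prod] at hphi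
    have hn := congrArg (fun t => ‖t‖) hphi
    simp only [norm_prod, eval_sub, eval_X, eval_C, hprime] at hn
    refine absurd hn (ne_of_lt ?_)
    rw [← Finset.mul_prod_erase _ _ ((mem_primitiveRoots hp.out.pos).mpr hxp), norm_sub_rev]
    refine mul_lt_one_of_nonneg_of_lt_one_left (norm_nonneg _) hlt
      (Finset.prod_le_one (fun _ _ => norm_nonneg _) fun z hz => ?_)
    have hz1 : ‖z‖ = 1 := FA.IwasawaMinus.norm_eq_one_of_pow
      ((mem_primitiveRoots hp.out.pos).mp (Finset.mem_of_mem_erase hz)).pow_eq_one hp.out.ne_zero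
    rw [sub_eq_add_neg]
    exact (IsUltrametricDist.norm_add_le_max (1 : PadicAlgCl ℓ) (-z)).trans
      (max_le norm_one.le (by rw [norm_neg, hz1]))
  have hne0 := hk (π e) (fun a => π (χ₀ a))
    (by rw [← map_pow, show e ^ ((p - 1) * p ^ (k + 1)) = 1 from Subtype.ext h1, map_one])
    (by rwa [Nat.add_sub_cancel])
    (fun a => by
      rcases hχv a with h | h
      · rw [show χ₀ a = 0 from Subtype.ext h, map_zero]
        exact zero_mem _
      · exact mem_base_of_pow_le (Nat.totient_pos.2 (NeZero.pos d))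
          ((Nat.totient_le d).trans (le_max_right _ _))
          (by rw [← map_pow, show χ₀ a ^ Nat.totient d = 1 from Subtype.ext h, map_one]))
    (by rw [show χ₀ 1 = 1 from Subtype.ext hχ1, map_one])
    (fun a b => by rw [← map_mul, show χ₀ (a * b) = χ₀ a * χ₀ b from Subtype.ext (hχm a b)])
    (by
      rw [← map_pow, ← map_mul, show e ^ ((p - 1) / 2 * p ^ (k + 1)) * χ₀ (-1) = -1 from
        Subtype.ext hodd, map_neg, map_one])
  have hP : ‖(poly χ p g (k + 1)).eval η‖ = 1 := by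
    have e1 : (poly χ₀ p g (k + 1)).map (FA.IwasawaMinus.unitBall ℓ).subtype =
        poly χ p g (k + 1) := FA.FerreroAbelian.poly_map _ _ _
    rw [← e1, show η = (FA.IwasawaMinus.unitBall ℓ).subtype e from rfl, eval_map_apply]
    refine le_antisymm ((poly χ₀ p g (k + 1)).eval e).2 (not_lt.1 fun hlt => hne0 ?_)
    rw [show (fun a => π (χ₀ a)) = π ∘ χ₀ from rfl, ← FA.FerreroAbelian.poly_map,
      eval_map_apply]
    exact (FA.IwasawaMinus.residue_eq_zero_iff _).2 hlt
  have hη1 : η ≠ 1 := fun e1 => h3 (by rw [e1, one_pow])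
  obtain ⟨s, -, hs⟩ := exists_pow_genUnit hg (k + 1) ((ZMod.isUnit_iff_coprime (cF p d) _).2
    (Nat.Coprime.pow_right _ (Nat.coprime_comm.1
      (hp.out.coprime_iff_not_dvd.2 FA.FerreroAbelian.not_dvd_cF)))).unit
  have hs' : (cF p d : ZMod (p ^ (k + 1 + 1))) = (g : ZMod _) ^ s := by
    rw [← genUnit_val hg (k + 1), ← Units.val_pow_eq_pow_val, hs, IsUnit.unit_spec]
  have hpv := FA.FerreroAbelian.poly_value hg hd χ h1 hη1 hs'
  have hN : ((d * p ^ (k + 1 + 1) : ℕ) : PadicAlgCl ℓ) ≠ 0 :=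
    Nat.cast_ne_zero.2 (Nat.mul_ne_zero (NeZero.ne d) (pow_ne_zero _ hp.out.ne_zero))
  have hid : η ^ s * (poly χ p g (k + 1)).eval η =
      2 * ((cF p d : PadicAlgCl ℓ) * η ^ s - 1) * bv d p g (k + 1) χ η := by
    rw [bv, mul_div_assoc', eq_div_iff hN]
    linear_combination hpv
  have hn := congrArg (fun t => ‖t‖) hid
  simp only [norm_mul, norm_pow, hn1, one_pow, one_mul, hP] at hn
  rw [hn]
  refine mul_le_of_le_one_left (norm_nonneg _) (mul_le_one₀ ?_ (norm_nonneg _) ?_)
  · simpa using (FA.IwasawaMinus.norm_natCast (p := ℓ) 2).le.trans (PadicInt.norm_le_one _)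
  · rw [sub_eq_add_neg]
    refine (IsUltrametricDist.norm_add_le_max _ _).trans (max_le ?_ (by rw [norm_neg, norm_one]))
    rw [norm_mul, norm_pow, hn1, one_pow, mul_one, FA.IwasawaMinus.norm_natCast]
    exact PadicInt.norm_le_one _

end FA.WashingtonAbelian
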