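import Fermat.Agent.WashingtonAbelian.Minus
import Fermat.Agent.WashingtonAbelian.Stabilise
import Fermat.Agent.FerreroAbelian.Main

/-!
# The theorem of Washington for abelian fields

`p` and `ℓ` are distinct odd primes and `K/ℚ` is abelian. The relative class numbers and reflection
bound the classes killed by `ℓ` in `ℚ(ζ_{f p^(n+1)})`, `ℓ ∣ f`, hence along the cyclotomic
`ℤ_p`-extension of `K`, whose class numbers then have eventually constant exponent of `ℓ`
(`exists_ell_part_abelian`).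
-/

set_option autoImplicit false
set_option linter.unusedSectionVars false
set_option linter.style.haveILetI false

noncomputable section

open NumberField
open FA.IwasawaGrowth

namespace FA.WashingtonAbelian

variable {p : ℕ} [hp : Fact p.Prime] {ℓ : ℕ} [hl : Fact ℓ.Prime]

/-- An abelian field in fields of roots of unity containing those of order `ℓ`. -/
theorem exists_hom_cyclotomic (hne : ℓ ≠ p) (K : Type) [Field K] [NumberField K]
    [IsAbelianGalois ℚ K] :
    ∃ f e : ℕ, 0 < f ∧ ¬ p ∣ f ∧ ℓ ∣ f ∧ ∀ m, e ≤ m → ∀ (F : Type) [Field F] [NumberField F]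
      [IsCyclotomicExtension {f * p ^ (m + 1)} ℚ F], Nonempty (K →+* F) := by
  obtain ⟨N, hN, ⟨g⟩⟩ := FA.Summary.kroneckerWeber_cyclotomicField K
  obtain ⟨e, f, hf, hNef⟩ := Nat.exists_eq_pow_mul_and_not_dvd hN.ne' p hp.out.ne_one
  have hf0 : 0 < f := Nat.pos_of_ne_zero fun h => hf (h ▸ dvd_zero p)
  refine ⟨f * ℓ, e, Nat.mul_pos hf0 hl.out.pos, fun h => ?_, dvd_mul_left ℓ f,
    fun m hm F _ _ _ => ?_⟩
  · rcases hp.out.dvd_mul.1 h with h | h
    · exact hf h
    · exact hne ((Nat.prime_dvd_prime_iff_eq hp.out hl.out).1 h).symm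
  haveI : NeZero N := ⟨hN.ne'⟩
  haveI : NeZero (N : ℚ) := ⟨Nat.cast_ne_zero.2 hN.ne'⟩
  haveI : IsCyclotomicExtension {N} ℚ (CyclotomicField N ℚ) :=
    CyclotomicField.isCyclotomicExtension N ℚ
  haveI hM : NeZero (f * ℓ * p ^ (m + 1)) :=
    ⟨Nat.mul_ne_zero (Nat.mul_pos hf0 hl.out.pos).ne' (pow_ne_zero _ hp.out.ne_zero)⟩
  obtain ⟨c, hc⟩ : N ∣ f * ℓ * p ^ (m + 1) := by
    rw [hNef, mul_comm]
    exact mul_dvd_mul (dvd_mul_right f ℓ) (pow_dvd_pow p (hm.trans m.le_succ))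
  have hz : IsPrimitiveRoot ((IsCyclotomicExtension.zeta (f * ℓ * p ^ (m + 1)) ℚ F) ^ c) N :=
    (IsCyclotomicExtension.zeta_spec (f * ℓ * p ^ (m + 1)) ℚ F).pow
      (Nat.pos_of_ne_zero (NeZero.ne _)) (hc.trans (mul_comm _ _))
  haveI : Polynomial.IsSplittingField ℚ (CyclotomicField N ℚ) (Polynomial.X ^ N - 1) :=
    IsCyclotomicExtension.isSplittingField_X_pow_sub_one N ℚ (CyclotomicField N ℚ)
  let ψ : CyclotomicField N ℚ →ₐ[ℚ] F :=
    Polynomial.IsSplittingField.lift (CyclotomicField N ℚ) (Polynomial.X ^ N - 1) (by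
      rw [Polynomial.map_sub, Polynomial.map_pow, Polynomial.map_X, Polynomial.map_one]
      exact Polynomial.X_pow_sub_one_splits hz)
  exact ⟨ψ.toRingHom.comp g.toRingHom⟩

/-- **Bounded `ℓ`-ranks for `ℚ(ζ_{f p^(n+1)})`, `ℓ ∣ f`.** -/
theorem exists_rank_le_cyclotomic (hp2 : p ≠ 2) (hl2 : ℓ ≠ 2) (hne : ℓ ≠ p) {f : ℕ} [NeZero f]
    (hf : ¬ p ∣ f) (hlf : ℓ ∣ f) :
    ∃ C n₀, ∀ n, n₀ ≤ n →
      ∀ (F : Type) [Field F] [NumberField F] [IsCyclotomicExtension {f * p ^ (n + 1)} ℚ F],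
      Nat.card (powMonoidHom ℓ : ClassGroup (𝓞 F) →* ClassGroup (𝓞 F)).ker ≤ C := by
  obtain ⟨b, n₀, h⟩ := exists_minus_le (f := f) hp2 hl2 hne hf
  refine ⟨ℓ ^ (2 * b + 1), n₀, fun n hn F _ _ _ => ?_⟩
  haveI := FA.FerreroAbelian.isCMField_level (f := f) hp2 n F
  haveI : IsGalois ℚ F := IsCyclotomicExtension.isGalois {f * p ^ (n + 1)} ℚ F
  obtain ⟨c, hc⟩ := hlf.mul_right (p ^ (n + 1))
  have hζ := (IsCyclotomicExtension.zeta_spec (f * p ^ (n + 1)) ℚ F).pow
    (Nat.pos_of_ne_zero (NeZero.ne _)) (hc.trans (mul_comm _ _))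
  exact FA.FerreroWashington.card_torsion_le_relClassNumber F hl2 hζ (h n hn F)

attribute [local instance] numberField_sub ZpTower.finite_level ZpTower.isGalois

/-- **Bounded `ℓ`-ranks along the cyclotomic `ℤ_p`-extension of an abelian field.** -/
theorem exists_rank_le_abelian (hp2 : p ≠ 2) (hl2 : ℓ ≠ 2) (hne : ℓ ≠ p) (K : Type) [Field K]
    [NumberField K] [IsAbelianGalois ℚ K] (T : ZpTower p K)
    (hT : FA.FerreroAbelian.IsCyclotomicTower K p T) :
    ∃ C, ∀ j, Nat.card (powMonoidHom ℓ :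
      ClassGroup (𝓞 (T.field j)) →* ClassGroup (𝓞 (T.field j))).ker ≤ C := by
  obtain ⟨f, e, hf0, hf, hlf, hhom⟩ := exists_hom_cyclotomic (p := p) (ℓ := ℓ) hne K
  haveI : NeZero f := ⟨hf0.ne'⟩
  obtain ⟨D, hD⟩ := FA.FerreroAbelian.exists_shift (K := K) (p := p) hp2
  obtain ⟨C, n₀, hC⟩ := exists_rank_le_cyclotomic (f := f) hp2 hl2 hne hf hlf
  refine ⟨f * p ^ (D + e + n₀ + 1) * C, fun j => ?_⟩
  set m := j + D + e + n₀ with hm
  let F := CyclotomicField (f * p ^ (m + 1)) ℚ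
  haveI : NeZero ((f * p ^ (m + 1) : ℕ) : ℚ) := ⟨Nat.cast_ne_zero.2 (NeZero.ne _)⟩
  haveI : IsCyclotomicExtension {f * p ^ (m + 1)} ℚ F :=
    CyclotomicField.isCyclotomicExtension _ ℚ
  haveI : NumberField F := IsCyclotomicExtension.numberField {f * p ^ (m + 1)} ℚ F
  haveI : IsGalois ℚ F := IsCyclotomicExtension.isGalois {f * p ^ (m + 1)} ℚ F
  obtain ⟨κ⟩ := hhom m (by omega) F
  letI : Algebra K F := κ.toAlgebra
  haveI : IsScalarTower ℚ K F :=
    IsScalarTower.of_algebraMap_eq fun x => (κ.map_rat_algebraMap x).symm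
  haveI : FiniteDimensional K F := Module.Finite.right ℚ K F
  haveI : IsGalois K F := IsGalois.tower_top_of_isGalois ℚ K F
  let h : F →ₐ[K] AlgebraicClosure K := IsAlgClosed.lift
  let u : F ≃ₐ[K] h.fieldRange := AlgEquiv.ofInjectiveField h
  haveI : FiniteDimensional K h.fieldRange := u.toLinearEquiv.finiteDimensional
  haveI : IsGalois K h.fieldRange := IsGalois.of_algEquiv u
  have hle : T.field j ≤ h.fieldRange := by
    refine (hD T hT j).trans (IntermediateField.adjoin_le_iff.2 ?_)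
    rintro b ⟨q, hq, -, hb⟩
    rw [Set.mem_singleton_iff.1 hq] at hb
    haveI : NeZero (p ^ (j + D + 1)) := ⟨pow_ne_zero _ hp.out.ne_zero⟩
    obtain ⟨c, hc⟩ : p ^ (j + D + 1) ∣ f * p ^ (m + 1) :=
      (pow_dvd_pow p (by omega)).mul_left _
    have hz' := ((IsCyclotomicExtension.zeta_spec (f * p ^ (m + 1)) ℚ F).pow
      (Nat.pos_of_ne_zero (NeZero.ne _)) (hc.trans (mul_comm _ _))).map_of_injective h.injective
    obtain ⟨i, -, hi⟩ := hz'.eq_pow_of_pow_eq_one hb
    exact ⟨_, (map_pow h _ i).trans hi⟩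
  obtain ⟨r, hr⟩ : Module.finrank K (T.field j) ∣ Module.finrank K h.fieldRange := by
    letI : Algebra (T.field j) h.fieldRange :=
      (IntermediateField.inclusion hle).toRingHom.toAlgebra
    haveI : IsScalarTower K (T.field j) h.fieldRange :=
      IsScalarTower.of_algebraMap_eq fun _ => rfl
    exact Dvd.intro _ (Module.finrank_mul_finrank K (T.field j) h.fieldRange)
  refine (FA.FerreroAbelian.card_torsion_le_of_le (p := ℓ) hle hr.symm).trans (Nat.mul_le_mul ?_ ?_)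
  · have h1 : Module.finrank K F ≤ f * p ^ (m + 1) := by
      refine le_trans ?_ (Nat.totient_le _)
      rw [← IsCyclotomicExtension.Rat.finrank (f * p ^ (m + 1)) (K := F),
        ← Module.finrank_mul_finrank ℚ K F]
      exact Nat.le_mul_of_pos_left _ Module.finrank_pos
    rw [u.toLinearEquiv.finrank_eq, hr, T.finrank_eq] at h1
    refine Nat.le_of_mul_le_mul_left (h1.trans (le_of_eq ?_)) (pow_pos hp.out.pos j)
    rw [hm]
    ring
  · exact (FA.FerreroAbelian.card_torsion_eq_of_ringEquiv u.symm.toRingEquiv ℓ).trans_le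
      (hC m (by omega) F)

/-- **Washington's theorem for every abelian field.** -/
theorem exists_ell_part_abelian (hp2 : p ≠ 2) (hl2 : ℓ ≠ 2) (hne : ℓ ≠ p) (K : Type) [Field K]
    [NumberField K] [IsAbelianGalois ℚ K] (T : ZpTower p K)
    (hT : FA.FerreroAbelian.IsCyclotomicTower K p T) :
    ∃ n₀ c C : ℕ, ∀ n,
      (n₀ ≤ n → padicValNat ℓ (classNumber (T.field n)) = c) ∧
        Nat.card (powMonoidHom ℓ :
          ClassGroup (𝓞 (T.field n)) →* ClassGroup (𝓞 (T.field n))).ker ≤ C := by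
  obtain ⟨C, hC⟩ := exists_rank_le_abelian hp2 hl2 hne K T hT
  obtain ⟨n₀, c, hc⟩ := exists_ell_stable hne T hC
  exact ⟨n₀, c, C, fun n => ⟨hc n, hC n⟩⟩

end FA.WashingtonAbelian
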