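import Fermat.Agent.FerreroAbelian.MinusGrowth
import Fermat.Agent.WashingtonAbelian.Branch

/-!
# The `ℓ`-part of the relative class number of `ℚ(ζ_{f p^(n+1)})` is bounded

For distinct odd primes `p`, `ℓ` and `p` not dividing `f` the new factors of the product over the
odd characters have `ℓ`-adic absolute value at least `1` at high levels, so
`v_ℓ h ≤ v_ℓ h⁺ + b` (`exists_minus_le`).
-/

set_option autoImplicit false
set_option linter.unusedSectionVars false
set_option linter.style.haveILetI false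

noncomputable section

open NumberField DirichletCharacter
open FA.IwasawaMinus (term IsGen)
open FA.FerreroAbelian (sz embA AlgNum oddChars)
open scoped Classical

namespace FA.WashingtonAbelian

variable {p : ℕ} [hp : Fact p.Prime] {ℓ : ℕ} [hl : Fact ℓ.Prime]

/-- **The lower bound at conductor `d p^(k+2)`.** -/
theorem exists_sz_ge_one (hp2 : p ≠ 2) (hl2 : ℓ ≠ 2) (hne : ℓ ≠ p) {d : ℕ} [NeZero d]
    (hd : d.Coprime p) :
    ∃ k₀, ∀ k, k₀ ≤ k → ∀ (m : ℕ) (χ : DirichletCharacter ℂ m),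
      m = d * p ^ (k + 1 + 1) → χ.IsPrimitive → χ.Odd →
      1 ≤ sz ℓ (FA.AbelianFE.bernoulliOne' m χ) := by
  obtain ⟨g, hg⟩ := FA.IwasawaMinus.exists_isGen (p := p) hp2
  obtain ⟨k₀, hk₀⟩ := Filter.eventually_atTop.1
    (eventually_one_le_norm_bv (p := p) (d := d) (g := g) (ℓ := ℓ) hp2 hl2 hne hg hd)
  refine ⟨k₀, fun k hk m χ hm hprim hodd => ?_⟩
  subst hm
  haveI : NeZero (p ^ (k + 1 + 1)) := ⟨pow_ne_zero _ hp.out.ne_zero⟩
  haveI : NeZero (d * p ^ (k + 1 + 1)) := ⟨Nat.mul_ne_zero (NeZero.ne d) (NeZero.ne _)⟩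
  have hcop := FA.FerreroAbelian.coprime_level hd (k + 1)
  rw [FA.AbelianFE.bernoulliOne'_eq,
    FA.FerreroAbelian.sz_of_mem (FA.FerreroAbelian.bernoulliOne_mem χ)]
  set e := ZMod.chineseRemainder hcop with he
  set ψ := FA.FerreroAbelian.leftPart hcop χ with hψ
  set ηA : AlgNum := ⟨χ (e.symm (1, (g : ZMod (p ^ (k + 1 + 1))))),
    FA.FerreroAbelian.char_mem χ _⟩ with hηA
  set ψA : ZMod d → AlgNum := fun a => ⟨ψ a, FA.FerreroAbelian.char_mem ψ a⟩ with hψA
  have hB : (⟨FA.AbelianFE.bernoulliOne χ, FA.FerreroAbelian.bernoulliOne_mem χ⟩ : AlgNum) =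
      FA.FerreroAbelian.bv d p g (k + 1) ψA ηA := by
    refine Subtype.ext ?_
    rw [FA.FerreroAbelian.coe_bv]
    exact FA.FerreroAbelian.bernoulliOne_eq_bv hg hd (k + 1) χ
  rw [hB, FA.FerreroAbelian.map_bv]
  have hφ : ηA ^ ((p - 1) * p ^ (k + 1)) = 1 := Subtype.ext (by
    rw [SubmonoidClass.coe_pow, OneMemClass.coe_one, hηA, ← map_pow χ, ← map_pow, Prod.pow_mk,
      one_pow, ← hg.2 (k + 1), pow_orderOf_eq_one, show ((1 : ZMod d),
        (1 : ZMod (p ^ (k + 1 + 1)))) = 1 from rfl, map_one, map_one])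
  refine hk₀ k hk (embA ℓ ηA) (embA ℓ ∘ ψA) (by rw [← map_pow, hφ, map_one]) (fun h1 => ?_)
    (by
      show embA ℓ _ = 1
      rw [← map_one (embA ℓ)]
      exact congrArg _ (Subtype.ext (map_one ψ)))
    (fun a b => by
      show embA ℓ _ = embA ℓ _ * embA ℓ _
      rw [← map_mul]
      exact congrArg _ (Subtype.ext (map_mul ψ a b)))
    (fun a => ?_) ?_
  · rw [← map_pow, ← map_one (embA ℓ)] at h1
    have h2 := congrArg Subtype.val ((embA ℓ).injective h1)
    rw [SubmonoidClass.coe_pow, OneMemClass.coe_one] at h2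
    have h3 := FA.FerreroAbelian.factorsThrough_of_pow hg hd k χ h2
    have h4 := Nat.le_of_dvd (Nat.pos_of_ne_zero
      (Nat.mul_ne_zero (NeZero.ne d) (pow_ne_zero (k + 1) hp.out.ne_zero)))
      ((mem_conductorSet_iff_conductor_dvd χ (mul_dvd_mul_left d
        (pow_dvd_pow p (Nat.le_succ (k + 1))))).1 h3)
    rw [(isPrimitive_def χ).1 hprim] at h4
    exact absurd (Nat.le_of_mul_le_mul_left h4 (NeZero.pos d))
      (not_le.2 (Nat.pow_lt_pow_succ hp.out.one_lt))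
  · by_cases ha : IsUnit a
    · refine Or.inr ?_
      obtain ⟨u, rfl⟩ := ha
      show embA ℓ _ ^ _ = 1
      rw [← map_pow, ← map_one (embA ℓ)]
      refine congrArg _ (Subtype.ext ?_)
      rw [SubmonoidClass.coe_pow, OneMemClass.coe_one, hψA, ← map_pow, ← Units.val_pow_eq_pow_val,
        ZMod.pow_totient, Units.val_one, map_one]
    · refine Or.inl ?_
      show embA ℓ _ = 0
      rw [show ψA a = 0 from Subtype.ext (ψ.map_nonunit ha), map_zero]
  have h1 : χ (-1) = -1 := hodd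
  have h2 : (-1 : ZMod (d * p ^ (k + 1 + 1))) =
      e.symm (-1, (g : ZMod (p ^ (k + 1 + 1))) ^ ((p - 1) * p ^ (k + 1) / 2)) := by
    rw [FA.IwasawaMinus.pow_half_eq_neg_one hp2 hg (k + 1), RingEquiv.eq_symm_apply, map_neg,
      map_one]
    rfl
  rw [h2, he, FA.FerreroAbelian.apply_pair] at h1
  have h3 : ψA (-1) * ηA ^ ((p - 1) * p ^ (k + 1) / 2) = -1 := Subtype.ext h1
  have h4 := congrArg (embA ℓ) h3
  rw [map_mul, map_pow, map_neg (embA ℓ), map_one (embA ℓ),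
    Nat.mul_div_right_comm ((hp.out.odd_of_ne_two hp2).tsub_odd odd_one).two_dvd] at h4
  rw [mul_comm]
  exact h4

variable {f : ℕ} [NeZero f]

/-- The absolute value of the product over the odd characters. -/
def lProd (ℓ p f n : ℕ) [Fact ℓ.Prime] [Fact p.Prime] [NeZero f] : ℝ :=
  ∏ χ ∈ oddChars (f * p ^ (n + 1)), sz ℓ (term χ)

theorem lProd_nonneg (n : ℕ) : 0 ≤ lProd ℓ p f n :=
  Finset.prod_nonneg fun _ _ => FA.FerreroAbelian.sz_nonneg _

/-- **The products grow.** -/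
theorem exists_lProd_le_succ (hp2 : p ≠ 2) (hl2 : ℓ ≠ 2) (hne : ℓ ≠ p) (hf : ¬ p ∣ f) :
    ∃ k₀, ∀ k, k₀ ≤ k → lProd ℓ p f k ≤ lProd ℓ p f (k + 1) := by
  have hcop : ∀ d, d ∣ f → d.Coprime p := fun d hd =>
    (Nat.coprime_comm.1 (hp.out.coprime_iff_not_dvd.2 hf)).coprime_dvd_left hd
  have hex : ∀ d, ∃ k₀, d ∣ f → ∀ k, k₀ ≤ k → ∀ (m : ℕ) (χ : DirichletCharacter ℂ m),
      m = d * p ^ (k + 1 + 1) → χ.IsPrimitive → χ.Odd →
      1 ≤ sz ℓ (FA.AbelianFE.bernoulliOne' m χ) := fun d => by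
    by_cases hd : d ∣ f
    · haveI : NeZero d := ⟨fun e => NeZero.ne f (Nat.eq_zero_of_zero_dvd (e ▸ hd))⟩
      obtain ⟨k₀, h⟩ := exists_sz_ge_one (p := p) (ℓ := ℓ) hp2 hl2 hne (hcop d hd)
      exact ⟨k₀, fun _ => h⟩
    · exact ⟨0, fun h => absurd h hd⟩
  choose k₀ hb using hex
  refine ⟨f.divisors.sup k₀, fun k hk => ?_⟩
  have hdvd : f * p ^ (k + 1) ∣ f * p ^ (k + 1 + 1) :=
    mul_dvd_mul_left f (pow_dvd_pow p (Nat.le_succ _))
  set O := oddChars (f * p ^ (k + 1 + 1)) with hO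
  have hold : ∏ χ ∈ O.filter (fun χ => χ.conductor ∣ f * p ^ (k + 1)), sz ℓ (term χ) =
      lProd ℓ p f k := by
    have hneg : ∀ χ₀ : DirichletCharacter ℂ (f * p ^ (k + 1)),
        changeLevel hdvd χ₀ (-1) = χ₀ (-1) := fun χ₀ => by
      show changeLevel hdvd χ₀
        ((-1 : (ZMod (f * p ^ (k + 1 + 1)))ˣ) : ZMod (f * p ^ (k + 1 + 1))) = _
      rw [changeLevel_eq_cast_of_dvd _ hdvd, Units.val_neg, Units.val_one,
        ← ZMod.castHom_apply (h := hdvd) (R := ZMod (f * p ^ (k + 1))), map_neg, map_one]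
    symm
    refine Finset.prod_bij (fun χ₀ _ => changeLevel hdvd χ₀) (fun χ₀ h => ?_)
      (fun _ _ _ _ e => changeLevel_injective hdvd e) (fun χ h => ?_) fun χ₀ _ => ?_
    · refine Finset.mem_filter.mpr ⟨Finset.mem_filter.mpr ⟨Finset.mem_univ _, ?_⟩, ?_⟩
      · show changeLevel hdvd χ₀ (-1) = -1
        rw [hneg]
        exact (Finset.mem_filter.mp h).2
      · rw [conductor_changeLevel]
        exact χ₀.conductor_dvd_level
    · obtain ⟨h1, h2⟩ := Finset.mem_filter.mp h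
      obtain ⟨_, χ₀, rfl⟩ := (mem_conductorSet_iff_conductor_dvd χ hdvd).mpr h2
      refine ⟨χ₀, Finset.mem_filter.mpr ⟨Finset.mem_univ _, ?_⟩, rfl⟩
      show χ₀ (-1) = -1
      rw [← hneg]
      exact (Finset.mem_filter.mp h1).2
    · haveI : NeZero χ₀.conductor := ⟨χ₀.conductor_ne_zero⟩
      rw [term, term, FA.AbelianFE.primitive_unique (χ₀.conductor_dvd_level.trans hdvd)
        χ₀.primitiveCharacter_isPrimitive (χ := changeLevel hdvd χ₀)
        (by rw [changeLevel_trans _ χ₀.conductor_dvd_level hdvd, changeLevel_primitiveCharacter])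
        FA.AbelianFE.bernoulliOne']
  set new := O.filter (fun χ => ¬ χ.conductor ∣ f * p ^ (k + 1))
  have hnew : ∀ χ ∈ new, 1 ≤ sz ℓ (term χ) := fun χ hχ => by
    obtain ⟨h1, h2⟩ := Finset.mem_filter.1 hχ
    obtain ⟨a, b, ha, hb', hab⟩ := Nat.dvd_mul.1 χ.conductor_dvd_level
    obtain ⟨j, hj, rfl⟩ := (Nat.dvd_prime_pow hp.out).1 hb'
    rcases Nat.lt_or_ge j (k + 1 + 1) with hlt | hge
    · exact absurd (hab ▸ mul_dvd_mul ha (pow_dvd_pow p (Nat.lt_succ_iff.1 hlt))) h2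
    obtain rfl : j = k + 1 + 1 := le_antisymm hj hge
    have hmem : a ∈ f.divisors := Nat.mem_divisors.2 ⟨ha, NeZero.ne f⟩
    haveI : NeZero χ.conductor := ⟨χ.conductor_ne_zero⟩
    rw [FA.FerreroAbelian.sz_term hl2]
    refine hb a ha k ((Finset.le_sup hmem).trans hk) _ _ hab.symm
      χ.primitiveCharacter_isPrimitive ?_
    show χ.primitiveCharacter (-1) = -1
    rw [FA.AbelianFE.primitiveCharacter_neg_one]
    exact (Finset.mem_filter.1 h1).2
  rw [lProd, lProd, ← Finset.prod_filter_mul_prod_filter_not O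
    (fun χ => χ.conductor ∣ f * p ^ (k + 1)), hold]
  exact le_mul_of_one_le_right (lProd_nonneg k) (Finset.one_le_prod hnew)

set_option backward.isDefEq.respectTransparency false in
/-- The class number formula in absolute values. -/
theorem classNumber_eq_lProd (hl2 : ℓ ≠ 2) (n : ℕ) (K : Type) [Field K] [NumberField K]
    [IsCyclotomicExtension {f * p ^ (n + 1)} ℚ K] [IsCMField K] :
    (ℓ : ℝ)⁻¹ ^ padicValNat ℓ (classNumber K) =
      (ℓ : ℝ)⁻¹ ^ (padicValNat ℓ (classNumber (maximalRealSubfield K)) +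
        padicValNat ℓ (Units.torsionOrder K)) * lProd ℓ p f n := by
  haveI : IsAbelianGalois ℚ K := IsCyclotomicExtension.isAbelianGalois {f * p ^ (n + 1)} ℚ K
  have h := FA.AbelianFE.relativeClassNumber_eq (f * p ^ (n + 1)) K K (AlgHom.id ℚ K)
  have hfil : (Finset.univ.filter fun χ : DirichletCharacter ℂ (f * p ^ (n + 1)) =>
      χ ∈ FA.AbelianZeta.fieldChars (f * p ^ (n + 1)) K (AlgHom.id ℚ K).fieldRange ∧ χ.Odd) =
      oddChars (f * p ^ (n + 1)) :=
    Finset.filter_congr fun χ _ => and_iff_right ((FA.AbelianZeta.mem_fieldChars_iff _ _ _).mpr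
      fun σ hσ => by
        have h1 : σ = 1 := AlgEquiv.ext fun x =>
          (IntermediateField.mem_fixingSubgroup_iff _ _).mp hσ x ⟨x, rfl⟩
        rw [h1, map_one, Units.val_one, map_one])
  rw [hfil] at h
  change (classNumber K : ℂ) = _ * _ * _ * ∏ χ ∈ oddChars (f * p ^ (n + 1)), term χ at h
  have hs := congrArg (sz ℓ) h
  rw [FA.FerreroAbelian.sz_mul (mul_mem (mul_mem (natCast_mem _ _) (natCast_mem _ _))
        (natCast_mem _ _)) (prod_mem fun χ _ => FA.FerreroAbelian.term_mem χ),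
    FA.FerreroAbelian.sz_mul (mul_mem (natCast_mem _ _) (natCast_mem _ _)) (natCast_mem _ _),
    FA.FerreroAbelian.sz_mul (natCast_mem _ _) (natCast_mem _ _),
    FA.FerreroAbelian.sz_prod _ _ (fun χ _ => FA.FerreroAbelian.term_mem χ)] at hs
  simp only [FA.FerreroAbelian.sz_natCast] at hs
  rw [FA.IwasawaMinus.norm_natCast_eq_pow (classNumber_pos K).ne',
    FA.IwasawaMinus.norm_natCast_eq_pow (classNumber_pos (maximalRealSubfield K)).ne',
    FA.IwasawaMinus.norm_natCast_eq_pow (Units.torsionOrder_ne_zero K)] at hs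
  have hQ : ‖(IsCMField.indexRealUnits K : PadicAlgCl ℓ)‖ = 1 :=
    FA.IwasawaMinus.norm_natCast_of_not_dvd fun hd => by
      rcases IsCMField.indexRealUnits_eq_one_or_two K with q | q <;> rw [q] at hd
      · exact hl.out.ne_one (Nat.dvd_one.1 hd)
      · exact hl2 ((Nat.prime_dvd_prime_iff_eq hl.out Nat.prime_two).1 hd)
  rw [hs, hQ, mul_one, ← pow_add]
  rfl

/-- The roots of unity. -/
theorem torsionOrder_le (hne : ℓ ≠ p) (n : ℕ) (K : Type) [Field K] [NumberField K]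
    [IsCyclotomicExtension {f * p ^ (n + 1)} ℚ K] :
    padicValNat ℓ (Units.torsionOrder K) ≤ padicValNat ℓ 2 + padicValNat ℓ f := by
  rw [IsCyclotomicExtension.Rat.torsionOrder_eq (n := f * p ^ (n + 1)) (K := K)]
  have h3 : padicValNat ℓ (f * p ^ (n + 1)) = padicValNat ℓ f := by
    rw [padicValNat.mul (NeZero.ne f) (pow_ne_zero _ hp.out.ne_zero),
      padicValNat.eq_zero_of_not_dvd (n := p ^ (n + 1)) fun h =>
        hne ((Nat.prime_dvd_prime_iff_eq hl.out hp.out).1 (hl.out.dvd_of_dvd_pow h)), add_zero]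
  split_ifs
  · exact h3.le.trans (Nat.le_add_left _ _)
  · rw [padicValNat.mul two_ne_zero (NeZero.ne _), h3]

/-- **The minus part is bounded.** -/
theorem exists_minus_le (hp2 : p ≠ 2) (hl2 : ℓ ≠ 2) (hne : ℓ ≠ p) (hf : ¬ p ∣ f) :
    ∃ b n₀ : ℕ, ∀ n, n₀ ≤ n →
      ∀ (K : Type) [Field K] [NumberField K] [IsCyclotomicExtension {f * p ^ (n + 1)} ℚ K]
        [IsCMField K],
        padicValNat ℓ (classNumber K) ≤
          padicValNat ℓ (classNumber (maximalRealSubfield K)) + b := by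
  obtain ⟨k₀, hstep⟩ := exists_lProd_le_succ (f := f) hp2 hl2 hne hf
  set π := (ℓ : ℝ)⁻¹
  have hπ0 : 0 < π := inv_pos.2 (by exact_mod_cast hl.out.pos)
  have hπ1 : π < 1 := inv_lt_one_of_one_lt₀ (by exact_mod_cast hl.out.one_lt)
  -- a field of the base level
  haveI : NeZero ((f * p ^ (k₀ + 1) : ℕ) : ℚ) := ⟨Nat.cast_ne_zero.mpr (NeZero.ne _)⟩
  haveI : IsCyclotomicExtension {f * p ^ (k₀ + 1)} ℚ (CyclotomicField (f * p ^ (k₀ + 1)) ℚ) :=
    CyclotomicField.isCyclotomicExtension _ ℚ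
  haveI : NumberField (CyclotomicField (f * p ^ (k₀ + 1)) ℚ) :=
    IsCyclotomicExtension.numberField {f * p ^ (k₀ + 1)} ℚ _
  haveI := FA.FerreroAbelian.isCMField_level (f := f) hp2 k₀
    (CyclotomicField (f * p ^ (k₀ + 1)) ℚ)
  have hpos : 0 < lProd ℓ p f k₀ := (lProd_nonneg k₀).lt_of_ne fun e => by
    have h := classNumber_eq_lProd (p := p) (ℓ := ℓ) (f := f) hl2 k₀
      (CyclotomicField (f * p ^ (k₀ + 1)) ℚ)
    rw [← e, mul_zero] at h
    exact (pow_pos hπ0 _).ne' h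
  obtain ⟨b, hb⟩ := exists_pow_lt_of_lt_one hpos hπ1
  have hall : ∀ n, k₀ ≤ n → π ^ b ≤ lProd ℓ p f n := fun n hn => by
    induction n, hn using Nat.le_induction with
    | base => exact hb.le
    | succ n hn ih => exact ih.trans (hstep n hn)
  refine ⟨padicValNat ℓ 2 + padicValNat ℓ f + b, k₀, fun n hn K _ _ _ _ => ?_⟩
  have h := classNumber_eq_lProd (p := p) (ℓ := ℓ) (f := f) hl2 n K
  have h1 : π ^ (padicValNat ℓ (classNumber (maximalRealSubfield K)) +
      padicValNat ℓ (Units.torsionOrder K) + b) ≤ π ^ padicValNat ℓ (classNumber K) := by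
    rw [h, pow_add _ (_ + _)]
    exact mul_le_mul_of_nonneg_left (hall n hn) (pow_pos hπ0 _).le
  have h2 := (pow_le_pow_iff_right_of_lt_one₀ hπ0 hπ1).1 h1
  have h3 := torsionOrder_le (p := p) (ℓ := ℓ) (f := f) hne n K
  omega

end FA.WashingtonAbelian
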